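import Fermat.Agent.GoodRed.Gauss
import Mathlib.FieldTheory.Minpoly.IsIntegrallyClosed
import Mathlib.RingTheory.Valuation.LocalSubring

/-!
# Reduction of elements integral over `K[x]`
-/

set_option autoImplicit false
set_option linter.unusedSectionVars false
set_option linter.style.haveILetI false

open AlgebraicCurve IntermediateField Fermat.Agent.Red Polynomial
open scoped IntermediateField.algebraAdjoinAdjoin

namespace Fermat.Agent.GoodRed

variable {K k : Type*} [Field K] [Field k] {A : ValuationSubring K} {π : A →+* k}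
  {F Fk : Type*} [Field F] [Algebra K F] [Field Fk] [Algebra k Fk]

/-- a separating-type coordinate for a constant reduction: the degree is preserved. -/
structure IsCoord (R : ConstRed A π F Fk) (x : F) (xb : Fk) : Prop where
  isRed : R.IsRed x xb
  trans : Transcendental k xb
  finite : FiniteDimensional K⟮x⟯ F
  finite' : FiniteDimensional k⟮xb⟯ Fk
  finrank_eq : Module.finrank K⟮x⟯ F = Module.finrank k⟮xb⟯ Fk

variable {R : ConstRed A π F Fk} {x : F} {xb : Fk}

theorem IsCoord.transK (hc : IsCoord R x xb) : Transcendental K x :=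
  transcendental_of_isRed hc.isRed hc.trans

theorem IsCoord.ne_zero (hc : IsCoord R x xb) : x ≠ 0 := FF.transcendental_ne_zero hc.transK

theorem IsCoord.ne_zero' (hc : IsCoord R x xb) : xb ≠ 0 := FF.transcendental_ne_zero hc.trans

/-- a basis of `Fk` over `k(xb)` lifted to a basis of `F` over `K(x)`. -/
theorem IsCoord.exists_basis (hc : IsCoord R x xb) {ι : Type*} [Fintype ι]
    (wb : Module.Basis ι k⟮xb⟯ Fk) (w : ι → F) (hw : ∀ i, R.IsRed (w i) (wb i)) :
    ∃ b : Module.Basis ι K⟮x⟯ F, ⇑b = w := by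
  have := hc.finite
  have hli := linearIndependent_lift hc.isRed hc.trans hw wb.linearIndependent
  have hcard : Fintype.card ι = Module.finrank K⟮x⟯ F := by
    rw [hc.finrank_eq, Module.finrank_eq_card_basis wb]
  have : Nonempty ι := by
    rw [← Fintype.card_pos_iff, hcard]
    exact Module.finrank_pos
  exact ⟨basisOfLinearIndependentOfCardEqFinrank hli hcard, by simp⟩

/-- elements of `O` have integral coordinates -/
theorem IsCoord.repr_mem (hc : IsCoord R x xb) {ι : Type*} [Fintype ι]
    (wb : Module.Basis ι k⟮xb⟯ Fk) (b : Module.Basis ι K⟮x⟯ F) (hw : ∀ i, R.IsRed (b i) (wb i))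
    {f : F} (hf : f ∈ R.O) (i : ι) : (b.repr f i : F) ∈ R.O := by
  refine coeff_mem hc.isRed hc.trans hw wb.linearIndependent (fun i => b.repr f i) ?_ i
  have := b.sum_repr f
  simp only [IntermediateField.smul_def, smul_eq_mul] at this
  rwa [this]

/-- the valuation ring `K(x) ∩ O`. -/
def gaussRing (R : ConstRed A π F Fk) (x : F) : ValuationSubring K⟮x⟯ :=
  R.O.comap (algebraMap K⟮x⟯ F)

theorem mem_gaussRing {f : K⟮x⟯} : f ∈ gaussRing R x ↔ (f : F) ∈ R.O := Iff.rfl

instance algebraGaussRing : Algebra (gaussRing R x) F :=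
  ((algebraMap K⟮x⟯ F).comp (algebraMap (gaussRing R x) K⟮x⟯)).toAlgebra

instance : IsScalarTower (gaussRing R x) K⟮x⟯ F := IsScalarTower.of_algebraMap_eq fun _ => rfl

theorem algebraMap_gaussRing (a : gaussRing R x) :
    algebraMap (gaussRing R x) F a = ((a : K⟮x⟯) : F) := rfl

/-- elements of `O` are integral over `K(x) ∩ O`. -/
theorem IsCoord.isIntegral_gaussRing (hc : IsCoord R x xb) {f : F} (hf : f ∈ R.O) :
    IsIntegral (gaussRing R x) f := by
  classical
  have := hc.finite'
  let wb := Module.finBasis k⟮xb⟯ Fk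
  have hex : ∀ i, ∃ y, R.IsRed y (wb i) := fun i => R.exists_isRed (wb i)
  choose w hw using hex
  obtain ⟨b, hb⟩ := hc.exists_basis wb w hw
  have hw' : ∀ i, R.IsRed (b i) (wb i) := by rw [hb]; exact hw
  have hmem : ∀ y ∈ R.O, y ∈ Submodule.span (gaussRing R x) (Set.range b) := by
    intro y hy
    have h1 := b.sum_repr y
    rw [← h1]
    refine Submodule.sum_mem _ fun i _ => ?_
    have h2 : b.repr y i • b i = (⟨b.repr y i, hc.repr_mem wb b hw' hy i⟩ : gaussRing R x) • b i := rfl
    rw [h2]
    exact Submodule.smul_mem _ _ (Submodule.subset_span ⟨i, rfl⟩)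
  have hmem' : ∀ y ∈ Submodule.span (gaussRing R x) (Set.range b), y ∈ R.O := by
    intro y hy
    refine Submodule.span_induction ?_ (zero_mem _) (fun a b _ _ ha hb => add_mem ha hb) ?_ hy
    · rintro _ ⟨i, rfl⟩
      exact (hw' i).mem
    · intro a y _ hy
      rw [Algebra.smul_def]
      exact mul_mem a.2 hy
  refine isIntegral_of_smul_mem_submodule (Submodule.span (gaussRing R x) (Set.range b)) ?_ ?_ f ?_
  · intro h0
    have h1 : (1 : F) ∈ Submodule.span (gaussRing R x) (Set.range b) := hmem 1 (one_mem _)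
    rw [h0, Submodule.mem_bot] at h1
    exact one_ne_zero h1
  · exact Submodule.fg_span (Set.finite_range b)
  · intro n hn
    exact hmem _ (mul_mem hf (hmem' n hn))

/-- (GR2) an element of `O` integral over `K[x]` satisfies an integral equation over `A[x]`. -/
theorem IsCoord.exists_equation (hc : IsCoord R x xb) {f : F} (hf : f ∈ R.O)
    (hint : IsIntegral (Algebra.adjoin K {x}) f) :
    ∃ (d : ℕ) (q : ℕ → A[X]),
      f ^ d + ∑ i ∈ Finset.range d, aeval x ((q i).map A.subtype) * f ^ i = 0 := by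
  have hP : IsIntegrallyClosed (Algebra.adjoin K {x}) := inferInstance
  have hfr : IsFractionRing (Algebra.adjoin K {x}) K⟮x⟯ := inferInstance
  have h1 : minpoly K⟮x⟯ f = _ := minpoly.isIntegrallyClosed_eq_field_fractions K⟮x⟯ F hint
  have h2 : minpoly K⟮x⟯ f = _ :=
    minpoly.isIntegrallyClosed_eq_field_fractions K⟮x⟯ F (hc.isIntegral_gaussRing hf)
  set g := minpoly K⟮x⟯ f with hg
  have hcoef : ∀ i, ∃ q : A[X], aeval x (q.map A.subtype) = (g.coeff i : F) := by
    intro i
    have h3 : ((g.coeff i : K⟮x⟯) : F) ∈ R.O := by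
      rw [h2, coeff_map]
      exact ((minpoly (gaussRing R x) f).coeff i).2
    obtain ⟨p, hp⟩ := FF.exists_poly x ((minpoly (Algebra.adjoin K {x}) f).coeff i)
    have h4 : ((g.coeff i : K⟮x⟯) : F) = aeval x p := by
      rw [← hp, h1, coeff_map]
      rfl
    rw [h4] at h3
    obtain ⟨q, hq⟩ := exists_map_eq_of_mem hc.isRed hc.trans p h3
    exact ⟨q, by rw [hq, h4]⟩
  choose q hq using hcoef
  have hmon : g.Monic := by
    rw [h2]
    exact (minpoly.monic (hc.isIntegral_gaussRing hf)).map _
  refine ⟨g.natDegree, q, ?_⟩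
  have h3 : aeval f g = 0 := minpoly.aeval _ _
  rw [aeval_eq_sum_range, Finset.sum_range_succ, hmon.coeff_natDegree, one_smul, add_comm] at h3
  rw [← h3]
  congr 1
  refine Finset.sum_congr rfl fun i _ => ?_
  rw [hq, IntermediateField.smul_def, smul_eq_mul]

theorem isIntegral_of_equation {L : Type*} [Field L] [Algebra K L] {x f : L} (d : ℕ) (q : ℕ → K[X])
    (h : f ^ d + ∑ i ∈ Finset.range d, aeval x (q i) * f ^ i = 0) :
    IsIntegral (Algebra.adjoin K {x}) f := by
  let b : ℕ → Algebra.adjoin K {x} := fun i => ⟨aeval x (q i), aeval_mem_adjoin_singleton K x⟩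
  refine ⟨X ^ d + ∑ i ∈ Finset.range d, C (b i) * X ^ i, ?_, ?_⟩
  · apply monic_X_pow_add
    refine (degree_sum_le _ _).trans_lt ?_
    refine (Finset.sup_lt_iff (WithBot.bot_lt_coe d)).2 fun i hi => ?_
    refine (degree_C_mul_X_pow_le i _).trans_lt ?_
    exact WithBot.coe_lt_coe.2 (Finset.mem_range.1 hi)
  · rw [eval₂_add, eval₂_X_pow, eval₂_finsetSum, ← h]
    congr 1
    refine Finset.sum_congr rfl fun i _ => ?_
    rw [eval₂_mul, eval₂_C, eval₂_X_pow]
    rfl

/-- (c2): the reduction of an element of `O` integral over `K[x]` is integral over `k[xb]`. -/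
theorem IsCoord.isIntegral_reduction (hc : IsCoord R x xb) {f : F} {fb : Fk} (hf : R.IsRed f fb)
    (hint : IsIntegral (Algebra.adjoin K {x}) f) : IsIntegral (Algebra.adjoin k {xb}) fb := by
  obtain ⟨d, q, h⟩ := hc.exists_equation hf.mem hint
  apply isIntegral_of_equation d (fun i => (q i).map π)
  have h1 : R.IsRed (f ^ d + ∑ i ∈ Finset.range d, aeval x ((q i).map A.subtype) * f ^ i)
      (fb ^ d + ∑ i ∈ Finset.range d, aeval xb ((q i).map π) * fb ^ i) :=
    (hf.pow d).add (ConstRed.isRed_sum _ fun i _ => (isRed_aeval hc.isRed (q i)).mul (hf.pow i))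
  rw [h] at h1
  exact h1.unique R.isRed_zero

end Fermat.Agent.GoodRed
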