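import Fermat.Agent.GoodRed.Tame
import Fermat.Agent.GoodRed.Integral

/-!
# Trace dual of a chart in characteristic zero
-/

set_option autoImplicit false
set_option linter.unusedSectionVars false
set_option linter.style.haveILetI false

open IsDedekindDomain WithZero AlgebraicCurve IntermediateField Fermat.Agent.Red
open scoped IntermediateField.algebraAdjoinAdjoin

namespace Fermat.Agent.GoodRed

variable {K F : Type*} [Field K] [Field F] [Algebra K F]

section Poly

/-- `x - a` as an element of `K[x]`. -/
def genSub (x : F) (a : K) : Algebra.adjoin K {x} := FF.gen x - algebraMap K _ a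

@[simp] theorem coe_genSub (x : F) (a : K) :
    ((genSub x a : Algebra.adjoin K {x}) : F) = x - algebraMap K F a := rfl

@[simp] theorem algebraMap_genSub (x : F) (a : K) :
    algebraMap (Algebra.adjoin K {x}) F (genSub x a) = x - algebraMap K F a := rfl

theorem sub_mem_span_genSub (x : F) (a : K) (p : Polynomial K) (y : Algebra.adjoin K {x})
    (hy : (y : F) = Polynomial.aeval x p) :
    y - algebraMap K _ (p.eval a) ∈ Ideal.span {genSub x a} := by
  rw [Ideal.mem_span_singleton]
  obtain ⟨q, hq⟩ := Polynomial.X_sub_C_dvd_sub_C_eval (p := p) (a := a)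
  refine ⟨⟨Polynomial.aeval x q, Polynomial.aeval_mem_adjoin_singleton K x⟩, ?_⟩
  apply Subtype.ext
  change (y : F) - algebraMap K F (p.eval a) = (x - algebraMap K F a) * Polynomial.aeval x q
  have h2 := congrArg (Polynomial.aeval x) hq
  rw [map_sub, map_mul, map_sub, Polynomial.aeval_X, Polynomial.aeval_C, Polynomial.aeval_C] at h2
  rw [hy, h2]

theorem genSub_ne_zero {x : F} (hx : Transcendental K x) (a : K) : genSub x a ≠ 0 := by
  intro h
  have h1 : x = algebraMap K F a := by
    have := congrArg Subtype.val h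
    simpa [sub_eq_zero] using this
  rw [h1] at hx
  exact hx (isAlgebraic_algebraMap a)

theorem span_genSub_ne_top {x : F} (hx : Transcendental K x) (a : K) :
    Ideal.span {genSub x a} ≠ ⊤ := by
  intro h
  rw [Ideal.eq_top_iff_one, Ideal.mem_span_singleton] at h
  obtain ⟨y, hy⟩ := h
  obtain ⟨p, hp⟩ := FF.exists_poly x y
  have h1 : (1 : F) = (x - algebraMap K F a) * Polynomial.aeval x p := by
    have := congrArg Subtype.val hy
    rw [← hp]
    exact this
  have h2 : Polynomial.aeval x ((Polynomial.X - Polynomial.C a) * p - 1 : Polynomial K) = 0 := by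
    simp [← h1]
  have h3 : ((Polynomial.X - Polynomial.C a) * p - 1 : Polynomial K) = 0 := by
    by_contra h4
    exact hx ⟨_, h4, h2⟩
  have h4 := congrArg (Polynomial.eval a) h3
  simp at h4

theorem isMaximal_span_genSub {x : F} (hx : Transcendental K x) (a : K) :
    (Ideal.span {genSub x a}).IsMaximal := by
  rw [Ideal.isMaximal_def]
  refine ⟨span_genSub_ne_top hx a, fun J hJ => ?_⟩
  obtain ⟨y, hyJ, hy⟩ := Set.exists_of_ssubset hJ
  obtain ⟨p, hp⟩ := FF.exists_poly x y
  have ha := sub_mem_span_genSub x a p y hp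
  have ha0 : p.eval a ≠ 0 := by
    intro h0
    apply hy
    rw [h0, map_zero, sub_zero] at ha
    exact ha
  have h1 : algebraMap K (Algebra.adjoin K {x}) (p.eval a) ∈ J := by
    have h2 := J.sub_mem hyJ (hJ.le ha)
    simpa using h2
  apply Ideal.eq_top_of_isUnit_mem _ h1
  exact (IsUnit.mk0 _ ha0).map (algebraMap K _)

theorem charZero_quotient [CharZero K] {x : F} (hx : Transcendental K x) (a : K) :
    CharZero (Algebra.adjoin K {x} ⧸ Ideal.span {genSub x a}) := by
  haveI : Nontrivial (Algebra.adjoin K {x} ⧸ Ideal.span {genSub x a}) :=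
    Ideal.Quotient.nontrivial_iff.mpr (span_genSub_ne_top hx a)
  exact charZero_of_injective_algebraMap
    (algebraMap K (Algebra.adjoin K {x} ⧸ Ideal.span {genSub x a})).injective

end Poly

section Main

variable {x : F} (hx : Transcendental K x) [FiniteDimensional K⟮x⟯ F]
  [Algebra.IsSeparable K⟮x⟯ F]

include hx in
/-- every maximal ideal of the integral closure lies over some `x - a`. -/
theorem exists_genSub_mem [IsAlgClosed K]
    (v : HeightOneSpectrum (integralClosure (Algebra.adjoin K {x}) F)) :
    ∃ a : K, algebraMap (Algebra.adjoin K {x}) (integralClosure (Algebra.adjoin K {x}) F)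
      (genSub x a) ∈ v.asIdeal := by
  classical
  -- the contraction of `v` is nonzero
  have h0 : v.asIdeal.under (Algebra.adjoin K {x}) ≠ ⊥ := Ideal.under_ne_bot _ v.ne_bot
  obtain ⟨y, hy, hy0⟩ := Submodule.exists_mem_ne_zero_of_ne_bot h0
  rw [Ideal.mem_comap] at hy
  obtain ⟨p, hp⟩ := FF.exists_poly x y
  have hp0 : p ≠ 0 := by
    rintro rfl
    apply hy0
    apply Subtype.ext
    rw [hp]; simp
  have hsplit := IsAlgClosed.splits p
  obtain ⟨m, hm⟩ : ∃ m : Multiset K, p = Polynomial.C p.leadingCoeff *
      (m.map fun a => Polynomial.X - Polynomial.C a).prod :=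
    ⟨p.roots, by
      have := hsplit.eq_prod_roots
      exact this⟩
  have hy' : y = algebraMap K _ p.leadingCoeff * (m.map fun a => genSub x a).prod := by
    apply Subtype.ext
    rw [hp]
    conv_lhs => rw [hm]
    rw [map_mul, Polynomial.aeval_C, map_multiset_prod, Multiset.map_map]
    have h1 : (((m.map fun a => genSub x a).prod : Algebra.adjoin K {x}) : F) =
        (m.map fun a => x - algebraMap K F a).prod := by
      rw [show (((m.map fun a => genSub x a).prod : Algebra.adjoin K {x}) : F) =
        (Algebra.adjoin K {x}).val (m.map fun a => genSub x a).prod from rfl,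
        map_multiset_prod, Multiset.map_map]
      rfl
    change _ = algebraMap K F p.leadingCoeff *
      (((m.map fun a => genSub x a).prod : Algebra.adjoin K {x}) : F)
    rw [h1]
    congr 2
    refine Multiset.map_congr rfl fun a _ => ?_
    simp
  rw [hy', map_mul, map_multiset_prod, Multiset.map_map] at hy
  rcases v.isPrime.mem_or_mem hy with h1 | h1
  · exfalso
    apply v.isPrime.ne_top
    apply Ideal.eq_top_of_isUnit_mem _ h1
    exact ((IsUnit.mk0 _ (by simpa using hp0)).map (algebraMap K (Algebra.adjoin K {x}))).map _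
  · obtain ⟨z, hz, hz'⟩ := (v.isPrime.multiset_prod_mem_iff_exists_mem _).1 h1
    obtain ⟨a, -, rfl⟩ := Multiset.mem_map.1 hz
    exact ⟨a, hz'⟩

/-- the product of the branch factors -/
noncomputable def delta (x : F) (B : Finset K) : Algebra.adjoin K {x} := ∏ b ∈ B, genSub x b

theorem coe_delta (x : F) (B : Finset K) :
    (delta x B : F) = ∏ b ∈ B, (x - algebraMap K F b) := by
  rw [delta, show ((∏ b ∈ B, genSub x b : Algebra.adjoin K {x}) : F) =
    (Algebra.adjoin K {x}).val (∏ b ∈ B, genSub x b) from rfl, map_prod]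
  rfl

include hx in
theorem delta_ne_zero (B : Finset K) : delta x B ≠ 0 :=
  Finset.prod_ne_zero_iff.2 fun b _ => genSub_ne_zero hx b

include hx in
/-- (c1) Elements of the trace dual have at most simple poles at the branch points:
`z = δ h` is integral and lies in the radical of `δ`. -/
theorem exists_pow_mul [IsAlgClosed K] [CharZero K] (B : Finset K)
    (hB : ∀ (P : Place K F) (a : K), a ∉ B → P.ord (x - algebraMap K F a) ≤ 1) (h : F)
    (hh : ∀ b : integralClosure (Algebra.adjoin K {x}) F,
      Algebra.trace K⟮x⟯ F (h * b) ∈ (algebraMap (Algebra.adjoin K {x}) K⟮x⟯).range) :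
    ∃ (N : ℕ) (z y : integralClosure (Algebra.adjoin K {x}) F),
      (z : F) = (delta x B : F) * h ∧ (z : F) ^ N = (delta x B : F) * y := by
  classical
  set S := integralClosure (Algebra.adjoin K {x}) F with hS
  have key : ∀ (v : HeightOneSpectrum S) (a : K),
      algebraMap (Algebra.adjoin K {x}) S (genSub x a) ∈ v.asIdeal →
      v.valuation F ((x - algebraMap K F a) * h) < 1 := by
    intro v a ha
    haveI := isMaximal_span_genSub hx a
    haveI := charZero_quotient hx a
    exact valuation_mul_lt_one (Q := K⟮x⟯) v (genSub x a) (genSub_ne_zero hx a) ha h hh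
  have hint : ∀ (v : HeightOneSpectrum S) (p : Algebra.adjoin K {x}),
      v.valuation F (p : F) ≤ 1 := by
    intro v p
    exact v.valuation_le_one (algebraMap _ S p)
  have hlt : ∀ (v : HeightOneSpectrum S) (b : K), b ∈ B →
      algebraMap (Algebra.adjoin K {x}) S (genSub x b) ∈ v.asIdeal →
      v.valuation F ((delta x B : F) * h) < 1 := by
    intro v b hb hbv
    have h1 : delta x B = genSub x b * ∏ c ∈ B.erase b, genSub x c := by
      rw [delta, Finset.mul_prod_erase B _ hb]
    have h2 : (delta x B : F) * h = ((x - algebraMap K F b) * h) *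
        ((∏ c ∈ B.erase b, genSub x c : Algebra.adjoin K {x}) : F) := by
      rw [h1]
      push_cast
      rw [coe_genSub]
      ring
    rw [h2, map_mul]
    calc _ ≤ v.valuation F ((x - algebraMap K F b) * h) * 1 := by
          gcongr
          exact hint v _
      _ < 1 := by rw [mul_one]; exact key v b hbv
  have hle : ∀ v : HeightOneSpectrum S, v.valuation F ((delta x B : F) * h) ≤ 1 := by
    intro v
    obtain ⟨a, ha⟩ := exists_genSub_mem hx v
    by_cases haB : a ∈ B
    · exact (hlt v a haB ha).le
    · have h1 := key v a ha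
      rw [map_mul] at h1
      have h2 := hB (Place.ofHeightOneSpectrum (K := K) (F := F) v) a haB
      rw [FF.ord_ofHeightOneSpectrum] at h2
      have h3 : v.valuation F (x - algebraMap K F a) ≠ 0 := by
        rw [Valuation.ne_zero_iff]
        intro h0
        exact genSub_ne_zero hx a (Subtype.ext h0)
      have h4 : exp (-1 : ℤ) ≤ v.valuation F (x - algebraMap K F a) := by
        rw [← exp_log h3, exp_le_exp]
        omega
      have h5 : v.valuation F h ≤ 1 := by
        rcases eq_or_ne (v.valuation F h) 0 with h0 | h0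
        · rw [h0]; exact zero_le_one
        have h6 : exp (-1 : ℤ) * v.valuation F h < 1 :=
          (mul_le_mul_left h4 _).trans_lt h1
        rw [← exp_log h0, ← exp_add, ← exp_zero, exp_lt_exp] at h6
        rw [← exp_log h0, ← exp_zero, exp_le_exp]
        omega
      rw [map_mul]
      exact mul_le_one' (hint v _) h5
  obtain ⟨z, hz⟩ := HeightOneSpectrum.mem_integers_of_valuation_le_one F _ hle
  have hrad : z ∈ (Ideal.span {algebraMap (Algebra.adjoin K {x}) S (delta x B)}).radical := by
    rw [Ideal.radical_eq_sInf, Submodule.mem_sInf]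
    rintro J ⟨hJ1, hJ2⟩
    have hJ0 : J ≠ ⊥ := by
      rintro rfl
      rw [le_bot_iff, Ideal.span_singleton_eq_bot] at hJ1
      refine delta_ne_zero hx B (Subtype.ext ?_)
      exact congrArg (Subtype.val : S → F) hJ1
    let v : HeightOneSpectrum S := ⟨J, hJ2, hJ0⟩
    have h1 : algebraMap (Algebra.adjoin K {x}) S (delta x B) ∈ J :=
      hJ1 (Ideal.mem_span_singleton_self _)
    rw [delta, map_prod, hJ2.prod_mem_iff] at h1
    obtain ⟨b, hb, hbJ⟩ := h1
    have h2 := hlt v b hb hbJ
    rw [← hz, v.valuation_lt_one_iff_mem] at h2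
    exact h2
  obtain ⟨N, hN⟩ := hrad
  rw [Ideal.mem_span_singleton] at hN
  obtain ⟨y, hy⟩ := hN
  refine ⟨N, z, y, hz, ?_⟩
  have := congrArg (algebraMap S F) hy
  rw [map_pow, map_mul] at this
  exact this

end Main

section Reduction

variable {x : F} (hx : Transcendental K x) [FiniteDimensional K⟮x⟯ F]
  [Algebra.IsSeparable K⟮x⟯ F]

theorem isCoprime_genSub {a b : K} (hab : a ≠ b) : IsCoprime (genSub x a) (genSub x b) := by
  have h1 : a - b ≠ 0 := sub_ne_zero.2 hab
  refine ⟨-algebraMap K _ (a - b)⁻¹, algebraMap K _ (a - b)⁻¹, ?_⟩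
  have h2 : genSub x b - genSub x a = algebraMap K _ (a - b) := by
    rw [genSub, genSub, map_sub]
    ring
  calc -algebraMap K _ (a - b)⁻¹ * genSub x a + algebraMap K _ (a - b)⁻¹ * genSub x b
      = algebraMap K (Algebra.adjoin K {x}) (a - b)⁻¹ * (genSub x b - genSub x a) := by ring
    _ = 1 := by rw [h2, ← map_mul, inv_mul_cancel₀ h1, map_one]

include hx in
/-- the trace of an element which is nilpotent modulo `δ` is divisible by `δ`. -/
theorem delta_dvd_trace (B : Finset K) (t y : integralClosure (Algebra.adjoin K {x}) F)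
    (N : ℕ) (hty : (t : F) ^ N = (delta x B : F) * y) :
    ∃ s : Algebra.adjoin K {x}, Algebra.trace K⟮x⟯ F t =
      algebraMap (Algebra.adjoin K {x}) K⟮x⟯ (delta x B * s) := by
  classical
  have hdvd : ∀ b ∈ B, genSub x b ∣ Algebra.intTrace (Algebra.adjoin K {x}) (integralClosure (Algebra.adjoin K {x}) F) t := by
    intro b hb
    haveI := isMaximal_span_genSub hx b
    rw [← Ideal.mem_span_singleton, ← Ideal.Quotient.eq_zero_iff_mem,
      ← Algebra.trace_quotient_eq_of_isDedekindDomain]
    letI : Field (Algebra.adjoin K {x} ⧸ Ideal.span {genSub x b}) := Ideal.Quotient.field _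
    apply IsNilpotent.eq_zero
    apply Algebra.isNilpotent_trace_of_isNilpotent
    refine ⟨N, ?_⟩
    rw [← map_pow, Ideal.Quotient.eq_zero_iff_mem]
    have h1 : t ^ N = algebraMap _ (integralClosure (Algebra.adjoin K {x}) F) (delta x B) * y := by
      apply Subtype.ext
      exact hty
    rw [h1]
    refine Ideal.mul_mem_right _ _ (Ideal.mem_map_of_mem _ ?_)
    rw [Ideal.mem_span_singleton]
    exact Finset.dvd_prod_of_mem _ hb
  have h2 : delta x B ∣ Algebra.intTrace (Algebra.adjoin K {x}) (integralClosure (Algebra.adjoin K {x}) F) t := by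
    rw [delta]
    exact Finset.prod_dvd_of_coprime (fun a _ b _ hab => isCoprime_genSub hab) hdvd
  obtain ⟨s, hs⟩ := h2
  refine ⟨s, ?_⟩
  rw [← hs, Algebra.algebraMap_intTrace (L := F)]
  rfl

/-- (c3), abstract form -/
theorem trace_mem_of_pow_eq (B : Finset K) (z y : integralClosure (Algebra.adjoin K {x}) F) (h : F)
    (N : ℕ) (hx : Transcendental K x)
    (hz : (z : F) = (delta x B : F) * h) (hzy : (z : F) ^ N = (delta x B : F) * y)
    (r : integralClosure (Algebra.adjoin K {x}) F) :
    Algebra.trace K⟮x⟯ F (h * r) ∈ (algebraMap (Algebra.adjoin K {x}) K⟮x⟯).range := by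
  obtain ⟨s, hs⟩ := delta_dvd_trace hx B (z * r) (y * r ^ N) N (by
    push_cast
    rw [mul_pow, hzy]
    ring)
  refine ⟨s, ?_⟩
  have hd : algebraMap (Algebra.adjoin K {x}) K⟮x⟯ (delta x B) ≠ 0 := by
    intro h0
    apply delta_ne_zero hx B
    apply IsFractionRing.injective (Algebra.adjoin K {x}) K⟮x⟯
    rw [h0, map_zero]
  have h1 : ((z * r : integralClosure (Algebra.adjoin K {x}) F) : F) =
      algebraMap (Algebra.adjoin K {x}) K⟮x⟯ (delta x B) • (h * r) := by
    push_cast
    rw [hz, IntermediateField.smul_def, smul_eq_mul, mul_assoc]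
    rfl
  rw [h1, LinearMap.map_smul, map_mul (algebraMap _ _), smul_eq_mul] at hs
  exact (mul_left_cancel₀ hd hs).symm

end Reduction

section Coord

variable {K k : Type*} [Field K] [Field k] {A : ValuationSubring K} {π : A →+* k}
  {F Fk : Type*} [Field F] [Algebra K F] [Field Fk] [Algebra k Fk]
  {R : ConstRed A π F Fk} {x : F} {xb : Fk}

theorem isRed_delta [DecidableEq K] [DecidableEq k] (h : R.IsRed x xb) (B : Finset A)
    (hB : Set.InjOn π B) :
    R.IsRed (delta x (B.image Subtype.val) : F) (delta xb (B.image π) : Fk) := by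
  rw [coe_delta, coe_delta, Finset.prod_image (fun a _ b _ hab => Subtype.ext hab),
    Finset.prod_image hB]
  exact ConstRed.isRed_prod _ fun b _ => h.sub (R.isRed_coe b)

/-- (c3) the reduction of an integral element of the trace dual of the ring of integers lies in the
trace dual of the ring of integers of the reduction. -/
theorem IsCoord.trace_mem [IsAlgClosed K] [CharZero K] (hc : IsCoord R x xb)
    (hsep : Algebra.IsSeparable k⟮xb⟯ Fk) (B : Finset A) (hB : Set.InjOn π B)
    (hunr : ∀ (P : Place K F) (a : K), (∀ b ∈ B, (b : K) ≠ a) →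
      P.ord (x - algebraMap K F a) ≤ 1)
    {h : F} {hb : Fk} (hhb : R.IsRed h hb)
    (hh : ∀ r : F, IsIntegral (Algebra.adjoin K {x}) r →
      Algebra.trace K⟮x⟯ F (h * r) ∈ (algebraMap (Algebra.adjoin K {x}) K⟮x⟯).range)
    (r : Fk) (hr : IsIntegral (Algebra.adjoin k {xb}) r) :
    Algebra.trace k⟮xb⟯ Fk (hb * r) ∈ (algebraMap (Algebra.adjoin k {xb}) k⟮xb⟯).range := by
  classical
  have := hc.finite
  have := hc.finite'
  have : CharZero K⟮x⟯ := charZero_of_injective_algebraMap (algebraMap K K⟮x⟯).injective
  obtain ⟨N, z, y, hz, hzy⟩ := exists_pow_mul hc.transK (B.image Subtype.val) (by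
    intro P a ha
    apply hunr
    intro b hb hba
    exact ha (Finset.mem_image.2 ⟨b, hb, hba⟩)) h (fun b => hh b b.2)
  have hd := isRed_delta hc.isRed B hB
  have hd0 : (delta xb (B.image π) : Fk) ≠ 0 := by
    intro h0
    exact delta_ne_zero hc.trans (B.image π) (Subtype.ext h0)
  have hd0' := hd.ne_zero hd0
  have hzr : R.IsRed (z : F) ((delta xb (B.image π) : Fk) * hb) := by
    rw [hz]; exact hd.mul hhb
  have hyO : (y : F) ∈ R.O := by
    have h1 : (y : F) = (z : F) ^ N / (delta x (B.image Subtype.val) : F) := by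
      rw [hzy]; field_simp
    rw [h1]
    exact ((hzr.pow N).div hd hd0).mem
  obtain ⟨yb, hyb⟩ := R.exists_isRed_of_mem hyO
  have hzi := hc.isIntegral_reduction hzr z.2
  have hyi := hc.isIntegral_reduction hyb y.2
  have hpow : ((delta xb (B.image π) : Fk) * hb) ^ N = (delta xb (B.image π) : Fk) * yb := by
    have h1 := hzr.pow N
    rw [hzy] at h1
    exact h1.unique (hd.mul hyb)
  exact trace_mem_of_pow_eq (B.image π) ⟨_, hzi⟩ ⟨_, hyi⟩ hb N hc.trans rfl hpow ⟨r, hr⟩

end Coord

end Fermat.Agent.GoodRed
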