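import Fermat.Agent.GoodRed.Dim
import Mathlib.RingTheory.Trace.Basic

/-!
# The trace dual `Ω` of the filtration and its dimension
-/

set_option autoImplicit false
set_option linter.unusedSectionVars false
set_option linter.style.haveILetI false

open AlgebraicCurve IntermediateField Polynomial
open scoped IntermediateField.algebraAdjoinAdjoin

namespace Fermat.Agent.GoodRed

variable {K F : Type*} [Field K] [Field F] [Algebra K F]

variable (K) in
/-- the trace to `K(x)`, as an element of `F` -/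
noncomputable def tr (x f : F) : F := (Algebra.trace K⟮x⟯ F f : K⟮x⟯)

variable (K) in
/-- `f` is a polynomial in `x`. -/
def IsPoly (x f : F) : Prop := ∃ p : K[X], f = aeval x p

section Poly

variable {x f g : F}

theorem IsPoly.add (hf : IsPoly K x f) (hg : IsPoly K x g) : IsPoly K x (f + g) := by
  obtain ⟨p, rfl⟩ := hf
  obtain ⟨q, rfl⟩ := hg
  exact ⟨p + q, by rw [map_add]⟩

theorem IsPoly.mul (hf : IsPoly K x f) (hg : IsPoly K x g) : IsPoly K x (f * g) := by
  obtain ⟨p, rfl⟩ := hf
  obtain ⟨q, rfl⟩ := hg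
  exact ⟨p * q, by rw [map_mul]⟩

theorem isPoly_zero (x : F) : IsPoly K x 0 := ⟨0, by rw [map_zero]⟩

theorem IsPoly.smul (hf : IsPoly K x f) (a : K) : IsPoly K x (a • f) := by
  obtain ⟨p, rfl⟩ := hf
  exact ⟨a • p, by rw [map_smul]⟩

theorem isPoly_sum {ι : Type*} (s : Finset ι) (f : ι → F) (h : ∀ i ∈ s, IsPoly K x (f i)) :
    IsPoly K x (∑ i ∈ s, f i) := by
  classical
  induction s using Finset.induction_on with
  | empty => rw [Finset.sum_empty]; exact isPoly_zero x
  | insert i s hi ih =>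
    rw [Finset.sum_insert hi]
    exact (h i (Finset.mem_insert_self i s)).add (ih fun j hj => h j (Finset.mem_insert_of_mem hj))

theorem mem_range_iff_isPoly (t : K⟮x⟯) :
    t ∈ (algebraMap (Algebra.adjoin K {x}) K⟮x⟯).range ↔ IsPoly K x (t : F) := by
  constructor
  · rintro ⟨y, rfl⟩
    obtain ⟨p, hp⟩ := FF.exists_poly x y
    exact ⟨p, hp⟩
  · rintro ⟨p, hp⟩
    exact ⟨⟨aeval x p, aeval_mem_adjoin_singleton K x⟩, Subtype.ext hp.symm⟩

theorem tr_inv (x f : F) : tr K x⁻¹ f = tr K x f := trace_congr (adjoin_inv x) f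

theorem tr_add (x f g : F) : tr K x (f + g) = tr K x f + tr K x g := by
  rw [tr, map_add]; rfl

theorem tr_sum {ι : Type*} (s : Finset ι) (x : F) (f : ι → F) :
    tr K x (∑ i ∈ s, f i) = ∑ i ∈ s, tr K x (f i) := by
  rw [tr, map_sum]
  simp only [tr]
  exact map_sum (algebraMap K⟮x⟯ F) _ _

theorem tr_mul {a : F} (ha : a ∈ K⟮x⟯) (f : F) : tr K x (a * f) = a * tr K x f := by
  have : a * f = (⟨a, ha⟩ : K⟮x⟯) • f := rfl
  rw [tr, this, map_smul]
  rfl

theorem tr_smul (a : K) (f : F) : tr K x (a • f) = a • tr K x f := by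
  rw [Algebra.smul_def, tr_mul (IntermediateField.algebraMap_mem _ _), Algebra.smul_def]

theorem aeval_mem (x : F) (p : K[X]) : aeval x p ∈ K⟮x⟯ := by
  exact (IntermediateField.algebra_adjoin_le_adjoin K {x}) (aeval_mem_adjoin_singleton K x)

theorem self_mem (x : F) : x ∈ K⟮x⟯ := mem_adjoin_simple_self K x

end Poly

/-- the trace dual -/
def Om (K : Type*) {F : Type*} [Field K] [Field F] [Algebra K F] (x : F) : Submodule K F where
  carrier := {h | (∀ r, IsInt K x r → IsPoly K x (tr K x (h * r))) ∧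
    (∀ r, IsInt K x⁻¹ r → IsPoly K x⁻¹ (tr K x (x ^ 2 * h * r)))}
  zero_mem' := by
    refine ⟨fun r _ => ?_, fun r _ => ?_⟩
    · rw [zero_mul]
      have : tr K x (0 : F) = 0 := by rw [tr, map_zero]; rfl
      rw [this]; exact isPoly_zero _
    · rw [mul_zero, zero_mul]
      have : tr K x (0 : F) = 0 := by rw [tr, map_zero]; rfl
      rw [this]; exact isPoly_zero _
  add_mem' := by
    rintro a b ⟨h1, h2⟩ ⟨h3, h4⟩
    refine ⟨fun r hr => ?_, fun r hr => ?_⟩
    · rw [add_mul, tr_add]; exact (h1 r hr).add (h3 r hr)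
    · rw [mul_add, add_mul, tr_add]; exact (h2 r hr).add (h4 r hr)
  smul_mem' := by
    rintro c h ⟨h1, h2⟩
    refine ⟨fun r hr => ?_, fun r hr => ?_⟩
    · rw [smul_mul_assoc, tr_smul]; exact (h1 r hr).smul c
    · rw [mul_smul_comm, smul_mul_assoc, tr_smul]; exact (h2 r hr).smul c

theorem mem_Om {x h : F} : h ∈ Om K x ↔ (∀ r, IsInt K x r → IsPoly K x (tr K x (h * r))) ∧
    (∀ r, IsInt K x⁻¹ r → IsPoly K x⁻¹ (tr K x (x ^ 2 * h * r))) := Iff.rfl

section Dim

variable {x : F} {ι : Type*} [Fintype ι] (B : RedBasis K x ι)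
  [FiniteDimensional K⟮x⟯ F] [Algebra.IsSeparable K⟮x⟯ F]

theorem sum_tr_mul_dual [DecidableEq ι] (b : Module.Basis ι K⟮x⟯ F) (h : F) :
    h = ∑ i, tr K x (h * b i) * b.traceDual i := by
  have h1 := b.traceDual.sum_repr h
  conv_lhs => rw [← h1]
  refine Finset.sum_congr rfl fun i _ => ?_
  rw [b.traceDual_repr_apply, Algebra.traceForm_apply]
  rfl

theorem tr_dual_mul [DecidableEq ι] (b : Module.Basis ι K⟮x⟯ F) (i j : ι) :
    tr K x (b.traceDual i * b j) = if j = i then 1 else 0 := by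
  rw [tr, b.trace_traceDual_mul]
  split_ifs <;> rfl

theorem RedBasis.Om_eq (hx : Transcendental K x) [DecidableEq ι] :
    Om K x = LinearMap.range (polyComb (K := K) x B.w.traceDual (fun i => B.d i - 1)) := by
  have hx0 : x ≠ 0 := FF.transcendental_ne_zero hx
  ext h
  rw [LinearMap.mem_range]
  constructor
  · intro hh
    rw [mem_Om] at hh
    have hp : ∀ i, ∃ p : degreeLT K (B.d i - 1), tr K x (h * B.w i) = aeval x (p : K[X]) := by
      intro i
      obtain ⟨p, hp⟩ := hh.1 (B.w i) (B.isInt i)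
      obtain ⟨q, hq⟩ := hh.2 _ (B.isInt' i)
      refine ⟨⟨p, ?_⟩, hp⟩
      rcases eq_or_ne p 0 with rfl | hp0
      · exact zero_mem _
      have h1 : x ^ 2 * h * (x⁻¹ ^ B.d i * B.w i) = (x ^ 2 * x⁻¹ ^ B.d i) * (h * B.w i) := by ring
      rw [h1, tr_mul (mul_mem (pow_mem (self_mem x) _) (pow_mem (inv_mem (self_mem x)) _)), hp]
        at hq
      have h2 : x ^ 2 * aeval x p = x ^ B.d i * aeval x⁻¹ q := by
        rw [← hq, inv_pow]
        have : x ^ B.d i ≠ 0 := pow_ne_zero _ hx0
        field_simp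
      have h3 := natDegree_add_le_of_eq hx 2 (B.d i) p q hp0 h2
      rw [mem_degreeLT, ← natDegree_lt_iff_degree_lt hp0]
      omega
    choose p hp using hp
    refine ⟨p, ?_⟩
    conv_rhs => rw [sum_tr_mul_dual B.w h]
    refine Finset.sum_congr rfl fun i _ => ?_
    rw [hp]
  · rintro ⟨p, rfl⟩
    have key : ∀ (r : ι → K[X]), tr K x ((polyComb (K := K) x B.w.traceDual (fun i => B.d i - 1)) p *
        ∑ j, aeval x (r j) * B.w j) = ∑ i, aeval x ((p i : K[X]) * r i) := by
      intro r
      change tr K x ((∑ i, aeval x (p i : K[X]) * B.w.traceDual i) * _) = _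
      rw [Finset.sum_mul, tr_sum]
      refine Finset.sum_congr rfl fun i _ => ?_
      rw [Finset.mul_sum, tr_sum, Finset.sum_eq_single i]
      · have : aeval x (p i : K[X]) * B.w.traceDual i * (aeval x (r i) * B.w i) =
            aeval x ((p i : K[X]) * r i) * (B.w.traceDual i * B.w i) := by
          rw [map_mul]; ring
        rw [this, tr_mul (aeval_mem x _), tr_dual_mul, if_pos rfl, mul_one]
      · intro j _ hj
        have : aeval x (p i : K[X]) * B.w.traceDual i * (aeval x (r j) * B.w j) =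
            aeval x ((p i : K[X]) * r j) * (B.w.traceDual i * B.w j) := by
          rw [map_mul]; ring
        rw [this, tr_mul (aeval_mem x _), tr_dual_mul, if_neg hj, mul_zero]
      · intro h; exact absurd (Finset.mem_univ _) h
    rw [mem_Om]
    constructor
    · intro r hr
      obtain ⟨m, hm⟩ := exists_mem_Lm hx hr
      obtain ⟨q, -, rfl⟩ := (B.mem_iff m r).1 hm
      rw [key]
      exact isPoly_sum _ _ fun i _ => ⟨_, rfl⟩
    · intro r hr
      obtain ⟨N, hN⟩ := exists_mem_Lm (transcendental_inv hx) hr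
      rw [mem_Lm, inv_inv] at hN
      have h1 : x ^ N * r ∈ Lm K x N := by
        refine ⟨hN.2, ?_⟩
        have : x⁻¹ ^ N * (x ^ N * r) = r := by
          rw [← mul_assoc, ← mul_pow, inv_mul_cancel₀ hx0, one_pow, one_mul]
        rw [this]; exact hr
      obtain ⟨q, hq, hqr⟩ := (B.mem_iff N _).1 h1
      have h2 : x ^ 2 * ((polyComb (K := K) x B.w.traceDual (fun i => B.d i - 1)) p) * r =
          (x ^ 2 * x⁻¹ ^ N) *
          ((polyComb (K := K) x B.w.traceDual (fun i => B.d i - 1)) p * (x ^ N * r)) := by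
        have : x ^ N ≠ 0 := pow_ne_zero _ hx0
        rw [inv_pow]
        field_simp
      rw [h2, tr_mul (mul_mem (pow_mem (self_mem x) _) (pow_mem (inv_mem (self_mem x)) _)), hqr,
        key, Finset.mul_sum]
      refine isPoly_sum _ _ fun i _ => ?_
      rcases eq_or_ne ((p i : K[X]) * q i) 0 with h0 | h0
      · rw [h0, map_zero, mul_zero]; exact isPoly_zero _
      have hp0 : (p i : K[X]) ≠ 0 := left_ne_zero_of_mul h0
      have hq0 : q i ≠ 0 := right_ne_zero_of_mul h0
      have h3 := (p i).2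
      rw [mem_degreeLT, ← natDegree_lt_iff_degree_lt hp0] at h3
      have h4 := hq i
      rw [mem_degreeLT, ← natDegree_lt_iff_degree_lt hq0] at h4
      have h5 : ((p i : K[X]) * q i).natDegree + 2 ≤ N := by
        rw [natDegree_mul hp0 hq0]
        omega
      have h6 : x ^ 2 * x⁻¹ ^ N = x⁻¹ ^ (N - 2) := by
        have h7 : x⁻¹ ^ N = x⁻¹ ^ (N - 2) * x⁻¹ ^ 2 := by
          rw [← pow_add, Nat.sub_add_cancel (by omega)]
        rw [h7]
        field_simp
      rw [h6, exists_aeval_inv hx0 _ (N - 2) (by omega)]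
      exact ⟨_, rfl⟩

theorem RedBasis.finrank_Om (hx : Transcendental K x) :
    Module.finrank K (Om K x) = ∑ i, (B.d i - 1) := by
  classical
  rw [B.Om_eq hx, finrank_range_polyComb hx]

include B in
theorem RedBasis.finiteDimensional_Om (hx : Transcendental K x) :
    FiniteDimensional K (Om K x) := by
  classical
  rw [B.Om_eq hx]
  infer_instance

/-- **Riemann's formula**: `dim L(m D) + dim Ω = m n + 1` for large `m`. -/
theorem finrank_Lm_add_finrank_Om [IsAlgClosed K] (hx : Transcendental K x) :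
    ∃ m0, ∀ m, m0 ≤ m →
      Module.finrank K (Lm K x m) + Module.finrank K (Om K x) =
        m * Module.finrank K⟮x⟯ F + 1 := by
  obtain ⟨ι, _, ⟨B⟩⟩ := exists_redBasis (K := K) hx
  refine ⟨Finset.univ.sup B.d, fun m hm => ?_⟩
  rw [B.finrank_Om hx]
  apply B.finrank_Lm_add hx
  intro i
  have := Finset.le_sup (f := B.d) (Finset.mem_univ i)
  omega

theorem finiteDimensional_Lm [IsAlgClosed K] (hx : Transcendental K x) (m : ℕ) :
    FiniteDimensional K (Lm K x m) := by
  obtain ⟨ι, _, ⟨B⟩⟩ := exists_redBasis (K := K) hx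
  exact B.finiteDimensional_Lm m

theorem finiteDimensional_Om [IsAlgClosed K] (hx : Transcendental K x) :
    FiniteDimensional K (Om K x) := by
  obtain ⟨ι, _, ⟨B⟩⟩ := exists_redBasis (K := K) hx
  exact B.finiteDimensional_Om hx

end Dim

end Fermat.Agent.GoodRed
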