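import Fermat.Agent.GoodRed.Ortho
import Fermat.Agent.GoodRed.Omega
import Fermat.Agent.GoodRed.Chart

/-!
# Good reduction of function fields with a tame coordinate

Main results (`GoodCoord R x xb B`):

* `GoodCoord.exists_lift_Lm`: for `m` large every element of `L(m (xb)_∞)` lifts to an integral
  element of `L(m (x)_∞)`.
* `GoodCoord.exists_lift_isInt`: every element of `Fk` integral over `k[xb]` lifts to an element of
  `O` integral over `K[x]`.
* `GoodCoord.finrank_Om_eq`: equality of genera.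
-/

set_option autoImplicit false
set_option linter.unusedSectionVars false
set_option linter.style.haveILetI false

open AlgebraicCurve IntermediateField Fermat.Agent.Red Polynomial
open scoped IntermediateField.algebraAdjoinAdjoin

namespace Fermat.Agent.GoodRed

variable {K k : Type*} [Field K] [Field k] {A : ValuationSubring K} {π : A →+* k}
  {F Fk : Type*} [Field F] [Algebra K F] [Field Fk] [Algebra k Fk]

/-- A good coordinate for a constant reduction: the degree over `K(x)` is preserved, the reduction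
is separable over `k(xb)`, and `x` is unramified outside `0`, `∞` and a finite set of units of `A`
with distinct residues. -/
structure GoodCoord (R : ConstRed A π F Fk) (x : F) (xb : Fk) (B : Finset A) : Prop
    extends IsCoord R x xb where
  sep : Algebra.IsSeparable k⟮xb⟯ Fk
  inj : Set.InjOn π B
  unit : ∀ b ∈ B, π b ≠ 0
  unram : ∀ (P : Place K F) (a : K), a ≠ 0 → (∀ b ∈ B, (b : K) ≠ a) →
    P.ord (x - algebraMap K F a) ≤ 1

variable {R : ConstRed A π F Fk} {x : F} {xb : Fk} {B : Finset A}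

theorem finrank_adjoin_inv {K F : Type*} [Field K] [Field F] [Algebra K F] (x : F) :
    Module.finrank K⟮x⁻¹⟯ F = Module.finrank K⟮x⟯ F := by
  rw [adjoin_inv]

theorem IsCoord.inv (hc : IsCoord R x xb) : IsCoord R x⁻¹ xb⁻¹ where
  isRed := hc.isRed.inv hc.ne_zero'
  trans := transcendental_inv hc.trans
  finite := by rw [adjoin_inv]; exact hc.finite
  finite' := by rw [adjoin_inv]; exact hc.finite'
  finrank_eq := by rw [finrank_adjoin_inv, finrank_adjoin_inv]; exact hc.finrank_eq

theorem IsCoord.mem_Lm (hc : IsCoord R x xb) {m : ℕ} {f : F} (hf : f ∈ Lm K x m) {fb : Fk}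
    (hfb : R.IsRed f fb) : fb ∈ Lm k xb m := by
  rw [GoodRed.mem_Lm] at hf ⊢
  exact ⟨hc.isIntegral_reduction hfb hf.1,
    hc.inv.isIntegral_reduction ((hc.inv.isRed.pow m).mul hfb) hf.2⟩

theorem GoodCoord.inv [DecidableEq A] (hc : GoodCoord R x xb B) :
    GoodCoord R x⁻¹ xb⁻¹ (B.image Ring.inverse) where
  toIsCoord := hc.toIsCoord.inv
  sep := by rw [adjoin_inv]; exact hc.sep
  inj := by
    have hu : ∀ b ∈ B, IsUnit b := fun b hb => by
      by_contra h
      exact hc.unit b hb ((R.pi_eq_zero_iff b).2 h)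
    have hinv : ∀ b ∈ B, π (Ring.inverse b) = (π b)⁻¹ := by
      intro b hb
      apply eq_inv_of_mul_eq_one_left
      rw [← map_mul, Ring.inverse_mul_cancel _ (hu b hb), map_one]
    intro b1 hb1 b2 hb2 h
    obtain ⟨c1, hc1, rfl⟩ := Finset.mem_image.1 hb1
    obtain ⟨c2, hc2, rfl⟩ := Finset.mem_image.1 hb2
    rw [hinv c1 hc1, hinv c2 hc2, inv_inj] at h
    rw [hc.inj hc1 hc2 h]
  unit := by
    have hu : ∀ b ∈ B, IsUnit b := fun b hb => by
      by_contra h
      exact hc.unit b hb ((R.pi_eq_zero_iff b).2 h)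
    intro b hb
    obtain ⟨c, hcB, rfl⟩ := Finset.mem_image.1 hb
    intro h0
    have h1 : π (Ring.inverse c) * π c = 1 := by
      rw [← map_mul, Ring.inverse_mul_cancel _ (hu c hcB), map_one]
    rw [h0, zero_mul] at h1
    exact zero_ne_one h1
  unram := by
    have hu : ∀ b ∈ B, IsUnit b := fun b hb => by
      by_contra h
      exact hc.unit b hb ((R.pi_eq_zero_iff b).2 h)
    intro P a ha hb
    by_contra hcon
    push Not at hcon
    have ha' : algebraMap K F a ≠ 0 := by simpa using ha
    have hx0 : x ≠ 0 := hc.toIsCoord.ne_zero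
    have h1 : P.ord x⁻¹ = 0 := by
      have h2 : x⁻¹ = algebraMap K F a + (x⁻¹ - algebraMap K F a) := by ring
      rw [h2, FF.ord_add_eq_of_lt P ha' (Or.inr ?_), FF.ord_algebraMap]
      rw [FF.ord_algebraMap]
      omega
    have hne : x⁻¹ - algebraMap K F a ≠ 0 := by
      intro h0
      rw [h0, Place.ord_zero] at hcon
      omega
    have h3 : x⁻¹ - algebraMap K F a =
        (-algebraMap K F a * x⁻¹) * (x - algebraMap K F a⁻¹) := by
      rw [map_inv₀]
      field_simp
      ring
    have h4 : x - algebraMap K F a⁻¹ ≠ 0 := by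
      intro h0
      rw [h0, mul_zero] at h3
      exact hne h3
    rw [h3, Place.ord_mul _ (mul_ne_zero (neg_ne_zero.2 ha') (inv_ne_zero hx0)) h4,
      Place.ord_mul _ (neg_ne_zero.2 ha') (inv_ne_zero hx0), FF.ord_neg, FF.ord_algebraMap,
      h1] at hcon
    have h5 := hc.unram P a⁻¹ (inv_ne_zero ha) (by
      intro b hbB hba
      apply hb _ (Finset.mem_image_of_mem _ hbB)
      have h6 : ((Ring.inverse b : A) : K) * (b : K) = 1 :=
        congrArg Subtype.val (Ring.inverse_mul_cancel b (hu b hbB))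
      rw [hba] at h6
      exact mul_right_cancel₀ (inv_ne_zero ha) (by rw [h6, mul_inv_cancel₀ ha]))
    omega

theorem GoodCoord.trace_mem [IsAlgClosed K] [CharZero K] (hc : GoodCoord R x xb B)
    {h : F} {hb : Fk} (hhb : R.IsRed h hb)
    (hh : ∀ r : F, IsInt K x r → IsPoly K x (tr K x (h * r)))
    (r : Fk) (hr : IsInt k xb r) : IsPoly k xb (tr k xb (hb * r)) := by
  classical
  rw [tr, ← mem_range_iff_isPoly]
  refine hc.toIsCoord.trace_mem hc.sep (insert 0 B) ?_ ?_ hhb ?_ r hr
  · intro b1 hb1 b2 hb2 h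
    rw [Finset.coe_insert, Set.mem_insert_iff] at hb1 hb2
    rcases hb1 with rfl | hb1 <;> rcases hb2 with rfl | hb2
    · rfl
    · rw [map_zero] at h
      exact absurd h.symm (hc.unit b2 hb2)
    · rw [map_zero] at h
      exact absurd h (hc.unit b1 hb1)
    · exact hc.inj hb1 hb2 h
  · intro P a ha
    refine hc.unram P a ?_ fun b hb => ha b (Finset.mem_insert_of_mem hb)
    have := ha 0 (Finset.mem_insert_self 0 B)
    exact fun h => this h.symm
  · intro r hr
    rw [mem_range_iff_isPoly]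
    exact hh r hr

theorem GoodCoord.mem_Om [IsAlgClosed K] [CharZero K] (hc : GoodCoord R x xb B)
    {h : F} (hh : h ∈ Om K x) {hb : Fk} (hhb : R.IsRed h hb) : hb ∈ Om k xb := by
  classical
  rw [GoodRed.mem_Om] at hh ⊢
  refine ⟨hc.trace_mem hhb hh.1, fun r hr => ?_⟩
  rw [← tr_inv]
  refine hc.inv.trace_mem ((hc.isRed.pow 2).mul hhb) (fun r hr => ?_) r hr
  rw [tr_inv]
  exact hh.2 r hr

theorem GoodCoord.finrank_Om_le [IsAlgClosed K] [CharZero K] [IsAlgClosed k]
    (hc : GoodCoord R x xb B) : Module.finrank K (Om K x) ≤ Module.finrank k (Om k xb) := by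
  have := hc.finite
  have := hc.finite'
  have := hc.sep
  have : CharZero K⟮x⟯ := charZero_of_injective_algebraMap (algebraMap K K⟮x⟯).injective
  have := finiteDimensional_Om hc.transK
  have := finiteDimensional_Om hc.trans
  exact hc.toIsCoord.finrank_le _ _ fun f hf fb hfb => hc.mem_Om hf hfb

theorem IsCoord.finrank_Lm_le [IsAlgClosed K] [CharZero K] [IsAlgClosed k]
    (hc : IsCoord R x xb) (m : ℕ) :
    Module.finrank K (Lm K x m) ≤ Module.finrank k (Lm k xb m) := by
  have := hc.finite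
  have := hc.finite'
  obtain ⟨ι, _, ⟨B⟩⟩ := exists_redBasis (K := K) hc.transK
  obtain ⟨ι', _, ⟨B'⟩⟩ := exists_redBasis (K := k) hc.trans
  have := B.finiteDimensional_Lm m
  have := B'.finiteDimensional_Lm m
  exact hc.finrank_le _ _ fun f hf fb hfb => hc.mem_Lm hf hfb

/-- for large `m` the dimensions of the spaces `L m` agree. -/
theorem GoodCoord.exists_finrank_Lm_le [IsAlgClosed K] [CharZero K] [IsAlgClosed k]
    (hc : GoodCoord R x xb B) : ∃ m0, ∀ m, m0 ≤ m →
      Module.finrank k (Lm k xb m) ≤ Module.finrank K (Lm K x m) := by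
  have := hc.finite
  have := hc.finite'
  have := hc.sep
  have : CharZero K⟮x⟯ := charZero_of_injective_algebraMap (algebraMap K K⟮x⟯).injective
  obtain ⟨m1, h1⟩ := finrank_Lm_add_finrank_Om (K := K) hc.transK
  obtain ⟨m2, h2⟩ := finrank_Lm_add_finrank_Om (K := k) hc.trans
  refine ⟨max m1 m2, fun m hm => ?_⟩
  have h3 := h1 m (le_trans (le_max_left _ _) hm)
  have h4 := h2 m (le_trans (le_max_right _ _) hm)
  have h5 := hc.finrank_Om_le
  rw [← hc.finrank_eq] at h4
  omega

/-- **Equality of genera.** -/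
theorem GoodCoord.finrank_Om_eq [IsAlgClosed K] [CharZero K] [IsAlgClosed k]
    (hc : GoodCoord R x xb B) : Module.finrank K (Om K x) = Module.finrank k (Om k xb) := by
  have := hc.finite
  have := hc.finite'
  have := hc.sep
  have : CharZero K⟮x⟯ := charZero_of_injective_algebraMap (algebraMap K K⟮x⟯).injective
  obtain ⟨m1, h1⟩ := finrank_Lm_add_finrank_Om (K := K) hc.transK
  obtain ⟨m2, h2⟩ := finrank_Lm_add_finrank_Om (K := k) hc.trans
  have h3 := h1 (max m1 m2) (le_max_left _ _)
  have h4 := h2 (max m1 m2) (le_max_right _ _)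
  have h5 := hc.finrank_Om_le
  have h6 := hc.toIsCoord.finrank_Lm_le (max m1 m2)
  rw [← hc.finrank_eq] at h4
  omega

/-- **Good reduction, `H(m)`**: for large `m`, every element of `L(m (xb)_∞)` lifts. -/
theorem GoodCoord.exists_lift_Lm [IsAlgClosed K] [CharZero K] [IsAlgClosed k]
    (hc : GoodCoord R x xb B) (hπ : Function.Surjective π) :
    ∃ m0, ∀ m, m0 ≤ m → ∀ z ∈ Lm k xb m, ∃ f ∈ Lm K x m, R.IsRed f z := by
  have := hc.finite
  have := hc.finite'
  obtain ⟨m0, h0⟩ := hc.exists_finrank_Lm_le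
  refine ⟨m0, fun m hm z hz => ?_⟩
  obtain ⟨ι, _, ⟨B⟩⟩ := exists_redBasis (K := K) hc.transK
  obtain ⟨ι', _, ⟨B'⟩⟩ := exists_redBasis (K := k) hc.trans
  have := B.finiteDimensional_Lm m
  have := B'.finiteDimensional_Lm m
  exact hc.toIsCoord.exists_lift hπ (Lm K x m) (Lm k xb m)
    (fun f hf fb hfb => hc.toIsCoord.mem_Lm hf hfb) (h0 m hm) hz

/-- **Good reduction, affine form (GR1)**: every element integral over `k[xb]` lifts to an element
of `O` integral over `K[x]`. -/
theorem GoodCoord.exists_lift_isInt [IsAlgClosed K] [CharZero K] [IsAlgClosed k]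
    (hc : GoodCoord R x xb B) (hπ : Function.Surjective π) {z : Fk} (hz : IsInt k xb z) :
    ∃ f, IsInt K x f ∧ R.IsRed f z := by
  obtain ⟨m0, h0⟩ := hc.exists_lift_Lm hπ
  obtain ⟨m1, h1⟩ := exists_mem_Lm hc.trans hz
  obtain ⟨f, hf, hfz⟩ := h0 (max m0 m1) (le_max_left _ _) z
    ((isFilt hc.trans).mono' (le_max_right _ _) h1)
  exact ⟨f, hf.1, hfz⟩

end Fermat.Agent.GoodRed
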