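import Fermat.Agent.GoodRed.Lattice

/-!
# Reduced bases of function fields and dimension formulas
-/

set_option autoImplicit false
set_option linter.unusedSectionVars false
set_option linter.style.haveILetI false

open AlgebraicCurve IntermediateField Polynomial
open scoped IntermediateField.algebraAdjoinAdjoin

namespace Fermat.Agent.GoodRed

variable {K F : Type*} [Field K] [Field F] [Algebra K F]

/-- A reduced basis of `F` over `K(x)`: simultaneous bases of the two charts. -/
structure RedBasis (K : Type*) {F : Type*} [Field K] [Field F] [Algebra K F] (x : F)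
    (ι : Type*) [Fintype ι] where
  w : Module.Basis ι K⟮x⟯ F
  d : ι → ℕ
  isInt : ∀ i, IsInt K x (w i)
  isInt' : ∀ i, IsInt K x⁻¹ (x⁻¹ ^ d i * w i)
  /-- the lattice `L m` is the set of combinations with bounded degrees -/
  mem_iff : ∀ m f, f ∈ Lm K x m ↔
    ∃ p : ι → K[X], (∀ i, p i ∈ degreeLT K (m + 1 - d i)) ∧ f = ∑ i, aeval x (p i) * w i

section Indep

variable {x : F}

/-- independence over `K[x]` implies independence over `K(x)`. -/
theorem linearIndependent_of_comb (hx : Transcendental K x) {I : Type*} (w : I → F)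
    (h : ∀ p : I →₀ K[X], comb x w p = 0 → p = 0) : LinearIndependent K⟮x⟯ w := by
  classical
  rw [← LinearIndependent.iff_fractionRing (Algebra.adjoin K {x}) K⟮x⟯, linearIndependent_iff]
  intro l hl
  choose φ hφ using fun y : Algebra.adjoin K {x} => FF.exists_poly x y
  have hφ0 : φ 0 = 0 := by
    by_contra h0
    exact hx ⟨φ 0, h0, (hφ 0).symm⟩
  have h1 : comb x w (l.mapRange φ hφ0) = 0 := by
    rw [comb, Finsupp.sum_mapRange_index (by simp), ← hl, Finsupp.linearCombination_apply]
    refine Finsupp.sum_congr fun i _ => ?_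
    rw [← hφ, Algebra.smul_def]
    rfl
  have h2 := h _ h1
  ext i
  have h3 := congrArg (fun p => p i) h2
  simp only [Finsupp.mapRange_apply, Finsupp.zero_apply] at h3
  rw [hφ, h3]
  simp

theorem isAlgebraic_adjoin [FiniteDimensional K⟮x⟯ F] (f : F) :
    IsAlgebraic (Algebra.adjoin K {x}) f := by
  have h1 : IsAlgebraic K⟮x⟯ f := (Algebra.IsAlgebraic.isAlgebraic (R := K⟮x⟯) f)
  exact (IsFractionRing.isAlgebraic_iff (Algebra.adjoin K {x}) K⟮x⟯ F).2 h1

/-- **Existence of reduced bases.** -/
theorem exists_redBasis [IsAlgClosed K] (hx : Transcendental K x) [FiniteDimensional K⟮x⟯ F] :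
    ∃ (ι : Type) (_ : Fintype ι), Nonempty (RedBasis K x ι) := by
  classical
  let h := isFilt hx
  have hli : LinearIndependent K⟮x⟯ (rbas h) :=
    linearIndependent_of_comb hx _ (eq_zero_of_comb_eq_zero h)
  have hspan : ⊤ ≤ Submodule.span K⟮x⟯ (Set.range (rbas h)) := by
    intro f _
    obtain ⟨y, hy, hyf⟩ := (isAlgebraic_adjoin (K := K) (x := x) f).exists_integral_multiple
    obtain ⟨m, hm⟩ := exists_mem_Lm hx hyf
    obtain ⟨p, hp⟩ := exists_comb h m _ hm
    have h1 : comb x (rbas h) p ∈ Submodule.span K⟮x⟯ (Set.range (rbas h)) := by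
      rw [comb, Finsupp.sum]
      refine Submodule.sum_mem _ fun i _ => ?_
      have h2 : aeval x (p i) * rbas h i =
          (algebraMap (Algebra.adjoin K {x}) K⟮x⟯
            ⟨aeval x (p i), aeval_mem_adjoin_singleton K x⟩) • rbas h i := rfl
      rw [h2]
      exact Submodule.smul_mem _ _ (Submodule.subset_span ⟨i, rfl⟩)
    have hy' : algebraMap (Algebra.adjoin K {x}) K⟮x⟯ y ≠ 0 := by
      intro h0
      apply hy
      apply IsFractionRing.injective (Algebra.adjoin K {x}) K⟮x⟯
      rw [h0, map_zero]
    have h3 : f = (algebraMap (Algebra.adjoin K {x}) K⟮x⟯ y)⁻¹ • (y • f) := by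
      rw [← algebraMap_smul K⟮x⟯ y f, inv_smul_smul₀ hy']
    rw [h3, ← hp]
    exact Submodule.smul_mem _ _ h1
  let b := Module.Basis.mk hli hspan
  have hfin : Finite (RIdx h) := Module.Finite.finite_basis b
  let e : RIdx h ≃ Fin (Nat.card (RIdx h)) := Finite.equivFin _
  refine ⟨Fin (Nat.card (RIdx h)), inferInstance, ⟨⟨b.reindex e, fun i => rdeg h (e.symm i), ?_, ?_, ?_⟩⟩⟩
  · intro i
    rw [Module.Basis.reindex_apply, Module.Basis.mk_apply]
    exact (rbas_mem h _).1
  · intro i
    rw [Module.Basis.reindex_apply, Module.Basis.mk_apply]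
    exact (rbas_mem h _).2
  · intro m f
    cases nonempty_fintype (RIdx h)
    have hcomb : ∀ p : RIdx h →₀ K[X], comb x (rbas h) p =
        ∑ i, aeval x (p (e.symm i)) * (b.reindex e) i := by
      intro p
      rw [comb, Finsupp.sum_fintype _ _ (by simp), ← e.symm.sum_comp]
      refine Finset.sum_congr rfl fun i _ => ?_
      rw [Module.Basis.reindex_apply, Module.Basis.mk_apply]
    constructor
    · intro hf
      obtain ⟨p, rfl⟩ := exists_comb h m f hf
      refine ⟨fun i => p (e.symm i), fun i => ?_, hcomb p⟩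
      rw [mem_degreeLT, degree_lt_iff_coeff_zero]
      intro j hj
      apply coeff_eq_zero h m p hf
      omega
    · rintro ⟨p, hp, rfl⟩
      let q : RIdx h →₀ K[X] := Finsupp.equivFunOnFinite.symm fun i => p (e i)
      have h1 := hcomb q
      have h2 : ∑ i, aeval x (q (e.symm i)) * (b.reindex e) i =
          ∑ i, aeval x (p i) * (b.reindex e) i := by
        refine Finset.sum_congr rfl fun i _ => ?_
        simp [q]
      rw [h2] at h1
      rw [← h1]
      apply comb_mem
      intro i j hij
      have h3 := hp (e i)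
      rw [mem_degreeLT, degree_lt_iff_coeff_zero] at h3
      have h4 := h3 j (by
        rw [Equiv.symm_apply_apply]
        omega)
      simpa [q] using h4

end Indep

section Dim

variable {x : F} {ι : Type*} [Fintype ι] (B : RedBasis K x ι)

include B in
theorem RedBasis.card_eq : Fintype.card ι = Module.finrank K⟮x⟯ F :=
  (Module.finrank_eq_card_basis B.w).symm

theorem finrank_degreeLT (n : ℕ) : Module.finrank K (degreeLT K n) = n := by
  rw [(degreeLTEquiv K n).finrank_eq, Module.finrank_fin_fun]

instance (n : ℕ) : FiniteDimensional K (degreeLT K n) :=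
  Module.Finite.equiv (degreeLTEquiv K n).symm

/-- combinations with polynomial coefficients, as a linear map. -/
noncomputable def polyComb (x : F) (w : ι → F) (e : ι → ℕ) :
    (∀ i, degreeLT K (e i)) →ₗ[K] F where
  toFun p := ∑ i, aeval x (p i : K[X]) * w i
  map_add' p q := by
    rw [← Finset.sum_add_distrib]
    refine Finset.sum_congr rfl fun i _ => ?_
    rw [Pi.add_apply, Submodule.coe_add, map_add, add_mul]
  map_smul' c p := by
    rw [RingHom.id_apply, Finset.smul_sum]
    refine Finset.sum_congr rfl fun i _ => ?_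
    rw [Pi.smul_apply, Submodule.coe_smul, map_smul, smul_mul_assoc]

theorem polyComb_injective (hx : Transcendental K x) (w : Module.Basis ι K⟮x⟯ F) (e : ι → ℕ) :
    Function.Injective (polyComb (K := K) x w e) := by
  rw [← LinearMap.ker_eq_bot, LinearMap.ker_eq_bot']
  intro p hp
  have h1 := Fintype.linearIndependent_iff.1 w.linearIndependent
    (fun i => algebraMap (Algebra.adjoin K {x}) K⟮x⟯
      ⟨aeval x (p i : K[X]), aeval_mem_adjoin_singleton K x⟩) hp
  ext i : 2
  by_contra h0
  apply hx
  refine ⟨_, h0, ?_⟩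
  have h2 := h1 i
  exact congrArg (algebraMap K⟮x⟯ F) h2

theorem finrank_range_polyComb (hx : Transcendental K x) (w : Module.Basis ι K⟮x⟯ F) (e : ι → ℕ) :
    Module.finrank K (LinearMap.range (polyComb (K := K) x w e)) = ∑ i, e i := by
  rw [LinearMap.finrank_range_of_inj (polyComb_injective hx w e), Module.finrank_pi_fintype]
  exact Finset.sum_congr rfl fun i _ => finrank_degreeLT _

theorem RedBasis.Lm_eq (m : ℕ) :
    Lm K x m = LinearMap.range (polyComb (K := K) x B.w (fun i => m + 1 - B.d i)) := by
  ext f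
  rw [B.mem_iff, LinearMap.mem_range]
  constructor
  · rintro ⟨p, hp, rfl⟩
    exact ⟨fun i => ⟨p i, hp i⟩, rfl⟩
  · rintro ⟨p, rfl⟩
    exact ⟨fun i => p i, fun i => (p i).2, rfl⟩

theorem RedBasis.finrank_Lm (hx : Transcendental K x) (m : ℕ) :
    Module.finrank K (Lm K x m) = ∑ i, (m + 1 - B.d i) := by
  rw [B.Lm_eq, finrank_range_polyComb hx]

include B in
theorem RedBasis.finiteDimensional_Lm (m : ℕ) : FiniteDimensional K (Lm K x m) := by
  rw [B.Lm_eq]
  infer_instance

theorem finrank_Lm_zero [IsAlgClosed K] (hx : Transcendental K x) :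
    Module.finrank K (Lm K x 0) = 1 := by
  have h1 : Lm K x 0 = LinearMap.range (Algebra.linearMap K F) := by
    ext f
    rw [mem_Lm, pow_zero, one_mul, LinearMap.mem_range]
    constructor
    · rintro ⟨h1, h2⟩
      obtain ⟨a, ha⟩ := exists_const hx h1 h2
      exact ⟨a, ha.symm⟩
    · rintro ⟨a, rfl⟩
      exact ⟨isInt_algebraMap x a, isInt_algebraMap _ a⟩
  rw [h1, LinearMap.finrank_range_of_inj, Module.finrank_self]
  exact (algebraMap K F).injective

theorem RedBasis.sum_one_sub [IsAlgClosed K] (hx : Transcendental K x) :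
    ∑ i, (1 - B.d i) = 1 := by
  have := B.finrank_Lm hx 0
  rw [finrank_Lm_zero hx] at this
  simpa using this.symm

/-- the dimension of `L m` for large `m` -/
theorem RedBasis.finrank_Lm_add [IsAlgClosed K] (hx : Transcendental K x) (m : ℕ)
    (hm : ∀ i, B.d i ≤ m + 1) :
    Module.finrank K (Lm K x m) + ∑ i, (B.d i - 1) = m * Module.finrank K⟮x⟯ F + 1 := by
  have h1 : ∑ i, (m + 1 - B.d i) + ∑ i, (B.d i - 1) = ∑ i, (m + (1 - B.d i)) := by
    rw [← Finset.sum_add_distrib]
    refine Finset.sum_congr rfl fun i _ => ?_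
    have := hm i
    omega
  rw [B.finrank_Lm hx, h1, Finset.sum_add_distrib, B.sum_one_sub hx, Finset.sum_const,
    Finset.card_univ, B.card_eq, smul_eq_mul, mul_comm]

end Dim

end Fermat.Agent.GoodRed
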