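import Fermat.Agent.Red.Basic
import Fermat.Agent.FF.Divisor

/-!
# Gauss reduction on `K(x)` inside a constant reduction

Let `R` be a constant reduction of `F / K` with residue field `Fk / k`, and `x` an element reducing
to a transcendental element `xb`.
-/

set_option autoImplicit false
set_option linter.unusedSectionVars false
set_option linter.style.haveILetI false

open AlgebraicCurve IntermediateField Fermat.Agent.Red Polynomial

namespace Fermat.Agent.GoodRed

variable {K k : Type*} [Field K] [Field k] {A : ValuationSubring K} {π : A →+* k}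
  {F Fk : Type*} [Field F] [Algebra K F] [Field Fk] [Algebra k Fk]
  {R : ConstRed A π F Fk}

section Finset

/-- scaling a finite family of constants by one of them. -/
theorem exists_scale_finset {ι : Type*} (s : Finset ι) (a : ι → K) (h : ∃ i ∈ s, a i ≠ 0) :
    ∃ i ∈ s, a i ≠ 0 ∧ ∀ j ∈ s, (a i)⁻¹ * a j ∈ A := by
  obtain ⟨i0, hi0, h0⟩ := h
  obtain ⟨i, hi, hmax⟩ := s.exists_max_image (fun j => A.valuation (a j)) ⟨i0, hi0⟩
  have hi' : a i ≠ 0 := by
    intro h
    have h1 := hmax i0 hi0
    rw [h, map_zero, le_zero_iff, map_eq_zero] at h1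
    exact h0 h1
  refine ⟨i, hi, hi', fun j hj => ?_⟩
  rw [← A.valuation_le_one_iff, map_mul, map_inv₀]
  have h2 : A.valuation (a i) ≠ 0 := by simpa using hi'
  calc (A.valuation (a i))⁻¹ * A.valuation (a j)
      ≤ (A.valuation (a i))⁻¹ * A.valuation (a i) := by gcongr; exact hmax j hj
    _ = 1 := inv_mul_cancel₀ h2

/-- a polynomial over `K` with coefficients in `A` lifts to `A[X]`. -/
theorem exists_map_eq (p : K[X]) (h : ∀ i, p.coeff i ∈ A) : ∃ q : A[X], q.map A.subtype = p := by
  have : p ∈ Polynomial.lifts A.subtype := by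
    rw [Polynomial.lifts_iff_coeff_lifts]
    intro n
    exact ⟨⟨p.coeff n, h n⟩, rfl⟩
  exact (Polynomial.mem_lifts p).1 this

/-- primitive scaling of a polynomial. -/
theorem exists_primitive (p : K[X]) (hp : p ≠ 0) :
    ∃ c : K, c ≠ 0 ∧ ∃ q : A[X], q.map A.subtype = C c * p ∧ q.map π ≠ 0 := by
  obtain ⟨i, hi, hi0, h⟩ := exists_scale_finset (A := A) p.support p.coeff (by
    obtain ⟨n, hn⟩ := Polynomial.support_nonempty.2 hp
    exact ⟨n, hn, by simpa using hn⟩)
  refine ⟨(p.coeff i)⁻¹, inv_ne_zero hi0, ?_⟩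
  obtain ⟨q, hq⟩ := exists_map_eq (A := A) (C (p.coeff i)⁻¹ * p) (by
    intro j
    rw [coeff_C_mul]
    by_cases hj : j ∈ p.support
    · exact h j hj
    · rw [notMem_support_iff.1 hj, mul_zero]
      exact zero_mem _)
  refine ⟨q, hq, fun h0 => ?_⟩
  have h1 : (q.map π).coeff i = 1 := by
    rw [coeff_map]
    have h2 : q.coeff i = 1 := by
      apply Subtype.ext
      have := congrArg (fun r => coeff r i) hq
      simp only [coeff_map, coeff_C_mul] at this
      rw [inv_mul_cancel₀ hi0] at this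
      simpa using this
    rw [h2, map_one]
  rw [h0, coeff_zero] at h1
  exact zero_ne_one h1

end Finset

section Poly

variable {x : F} {xb : Fk}

theorem eval₂_subtype (q : A[X]) :
    eval₂ ((algebraMap K F).comp A.subtype) x q = aeval x (q.map A.subtype) := by
  rw [aeval_def, eval₂_map]

theorem eval₂_pi (q : A[X]) :
    eval₂ ((algebraMap k Fk).comp π) xb q = aeval xb (q.map π) := by
  rw [aeval_def, eval₂_map]

/-- reduction of polynomials in `x`. -/
theorem isRed_aeval (h : R.IsRed x xb) (q : A[X]) :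
    R.IsRed (aeval x (q.map A.subtype)) (aeval xb (q.map π)) := by
  rw [← eval₂_subtype, ← eval₂_pi]
  exact h.aeval q

theorem aeval_ne_zero (ht : Transcendental k xb) {q : k[X]} (hq : q ≠ 0) : aeval xb q ≠ 0 :=
  fun h => ht ⟨q, hq, h⟩

/-- the Gauss lemma: a polynomial in `x` which is integral has integral coefficients. -/
theorem exists_map_eq_of_mem (h : R.IsRed x xb) (ht : Transcendental k xb) (p : K[X])
    (hp : aeval x p ∈ R.O) : ∃ q : A[X], q.map A.subtype = p := by
  rcases eq_or_ne p 0 with rfl | hp0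
  · exact ⟨0, by simp⟩
  obtain ⟨c, hc, q, hq, hq0⟩ := exists_primitive (A := A) (π := π) p hp0
  have h1 : R.IsRed (aeval x (q.map A.subtype)) (aeval xb (q.map π)) := isRed_aeval h q
  have h2 := aeval_ne_zero ht hq0
  have h3 := (h1.inv h2).mem
  rw [hq, map_mul, aeval_C] at h3
  have h4 : aeval x p ≠ 0 := by
    intro h0
    have := h1.ne_zero h2
    rw [hq, map_mul, h0, mul_zero] at this
    exact this rfl
  have h5 : algebraMap K F c⁻¹ ∈ R.O := by
    have h6 := mul_mem h3 hp
    rw [mul_inv, mul_assoc, inv_mul_cancel₀ h4, mul_one, ← map_inv₀] at h6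
    exact h6
  rw [R.algebraMap_mem_iff] at h5
  apply exists_map_eq
  intro i
  have h7 : p.coeff i = c⁻¹ * (q.coeff i : K) := by
    have := congrArg (fun r => coeff r i) hq
    simp only [coeff_map, coeff_C_mul] at this
    have h8 : (q.coeff i : K) = c * p.coeff i := this
    rw [h8, ← mul_assoc, inv_mul_cancel₀ hc, one_mul]
  rw [h7]
  exact mul_mem h5 (q.coeff i).2

theorem transcendental_of_isRed (h : R.IsRed x xb) (ht : Transcendental k xb) :
    Transcendental K x := by
  rintro ⟨p, hp0, hp⟩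
  obtain ⟨c, hc, q, hq, hq0⟩ := exists_primitive (A := A) (π := π) p hp0
  have h1 : R.IsRed (aeval x (q.map A.subtype)) (aeval xb (q.map π)) := isRed_aeval h q
  have h2 := h1.ne_zero (aeval_ne_zero ht hq0)
  apply h2
  rw [hq, map_mul, hp, mul_zero]

/-- elements of `K(x)` are quotients of polynomials. -/
theorem mem_adjoin_iff_div {f : F} :
    f ∈ K⟮x⟯ ↔ ∃ p q : K[X], f = aeval x p / aeval x q :=
  IntermediateField.mem_adjoin_simple_iff K f

/-- every element of `K(x)` is a constant times a quotient of primitive polynomials. -/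
theorem exists_rep (h : R.IsRed x xb) (ht : Transcendental k xb) {f : F} (hf : f ∈ K⟮x⟯)
    (hf0 : f ≠ 0) : ∃ c : K, c ≠ 0 ∧ ∃ p q : A[X], p.map π ≠ 0 ∧ q.map π ≠ 0 ∧
      f = algebraMap K F c * (aeval x (p.map A.subtype) / aeval x (q.map A.subtype)) := by
  obtain ⟨p, q, rfl⟩ := mem_adjoin_iff_div.1 hf
  have hp : p ≠ 0 := by rintro rfl; simp at hf0
  have hq : q ≠ 0 := by rintro rfl; simp at hf0
  obtain ⟨c, hc, p', hp', hp0'⟩ := exists_primitive (A := A) (π := π) p hp
  obtain ⟨d, hd, q', hq', hq0'⟩ := exists_primitive (A := A) (π := π) q hq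
  refine ⟨c⁻¹ * d, mul_ne_zero (inv_ne_zero hc) hd, p', q', hp0', hq0', ?_⟩
  rw [hp', hq', map_mul (aeval x), map_mul (aeval x), aeval_C, aeval_C, map_mul, map_inv₀]
  have hc' : algebraMap K F c ≠ 0 := by simpa using hc
  have hd' : algebraMap K F d ≠ 0 := by simpa using hd
  have hqx : aeval x q ≠ 0 := fun h0 => hf0 (by rw [h0, div_zero])
  field_simp

/-- `rd` maps `K(x) ∩ O` to `k(xb)`. -/
theorem IsRed.mem_adjoin (h : R.IsRed x xb) (ht : Transcendental k xb) {f : F} {fb : Fk}
    (hf : f ∈ K⟮x⟯) (hfb : R.IsRed f fb) : fb ∈ k⟮xb⟯ := by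
  rcases eq_or_ne f 0 with rfl | hf0
  · rw [hfb.unique R.isRed_zero]; exact zero_mem _
  obtain ⟨c, hc, p, q, hp, hq, hf'⟩ := exists_rep h ht hf hf0
  have h1 : R.IsRed (aeval x (p.map A.subtype) / aeval x (q.map A.subtype))
      (aeval xb (p.map π) / aeval xb (q.map π)) :=
    (isRed_aeval h p).div (isRed_aeval h q) (aeval_ne_zero ht hq)
  have h2 : aeval xb (p.map π) / aeval xb (q.map π) ≠ 0 :=
    div_ne_zero (aeval_ne_zero ht hp) (aeval_ne_zero ht hq)
  have h3 : algebraMap K F c ∈ R.O := by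
    have h4 := mul_mem hfb.mem (h1.inv h2).mem
    rw [hf', mul_assoc, mul_inv_cancel₀ (h1.ne_zero h2), mul_one] at h4
    exact h4
  rw [R.algebraMap_mem_iff] at h3
  have h4 : R.IsRed f (algebraMap k Fk (π ⟨c, h3⟩) *
      (aeval xb (p.map π) / aeval xb (q.map π))) := by
    rw [hf']
    exact (R.isRed_algebraMap h3).mul h1
  rw [hfb.unique h4]
  refine mul_mem (IntermediateField.algebraMap_mem _ _) ?_
  rw [mem_adjoin_iff_div]
  exact ⟨_, _, rfl⟩

end Poly

section Basis

variable {x : F} {xb : Fk}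

/-- **Lemma 0**, basic form: an integral combination is, up to one of its coefficients, a unit. -/
theorem exists_isRed_combination (h : R.IsRed x xb) (ht : Transcendental k xb) {ι : Type*}
    [Fintype ι] {w : ι → F} {wb : ι → Fk} (hw : ∀ i, R.IsRed (w i) (wb i))
    (hli : LinearIndependent k⟮xb⟯ wb) (q : ι → K⟮x⟯) (hq : ∃ i, q i ≠ 0) :
    ∃ j, (q j : F) ≠ 0 ∧ (∀ i, ((q j : F)⁻¹ * q i) ∈ R.O) ∧ ∃ z : Fk, z ≠ 0 ∧
      R.IsRed ((q j : F)⁻¹ * ∑ i, (q i : F) * w i) z := by
  classical
  have hne : ∃ i ∈ (Finset.univ : Finset ι), (q i : F) ≠ 0 := by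
    obtain ⟨i, hi⟩ := hq
    exact ⟨i, Finset.mem_univ _, by simpa using hi⟩
  obtain ⟨j, -, hj0, hj⟩ := exists_scale_finset (A := R.O) Finset.univ (fun i => (q i : F)) hne
  -- reductions of the quotients
  have hex : ∀ i, ∃ z : Fk, R.IsRed ((q j : F)⁻¹ * q i) z := fun i =>
    R.exists_isRed_of_mem (hj i (Finset.mem_univ _))
  choose z hz using hex
  have hzm : ∀ i, z i ∈ k⟮xb⟯ := by
    intro i
    refine IsRed.mem_adjoin h ht ?_ (hz i)
    exact mul_mem (inv_mem (q j).2) (q i).2
  have hsum : R.IsRed (∑ i, ((q j : F)⁻¹ * q i) * w i) (∑ i, z i * wb i) :=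
    ConstRed.isRed_sum _ fun i _ => (hz i).mul (hw i)
  refine ⟨j, hj0, fun i => hj i (Finset.mem_univ _), ∑ i, z i * wb i, fun h0 => ?_, ?_⟩
  · have hli' := Fintype.linearIndependent_iff.1 hli (fun i => ⟨z i, hzm i⟩) (by
      simpa only [IntermediateField.smul_def, smul_eq_mul] using h0) j
    have hzj : z j = 0 := congrArg Subtype.val hli'
    have h1 := hz j
    rw [inv_mul_cancel₀ hj0] at h1
    have := h1.unique R.isRed_one
    rw [hzj] at this
    exact zero_ne_one this
  · rw [Finset.mul_sum]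
    simpa only [mul_assoc] using hsum

/-- **Lemma 0**: coefficients of an integral combination of elements with independent reductions
are integral. -/
theorem coeff_mem (h : R.IsRed x xb) (ht : Transcendental k xb) {ι : Type*} [Fintype ι]
    {w : ι → F} {wb : ι → Fk} (hw : ∀ i, R.IsRed (w i) (wb i))
    (hli : LinearIndependent k⟮xb⟯ wb) (q : ι → K⟮x⟯)
    (hf : ∑ i, (q i : F) * w i ∈ R.O) (i : ι) : (q i : F) ∈ R.O := by
  by_cases hq : ∃ i, q i ≠ 0
  · obtain ⟨j, hj0, hj, z, hz0, hz⟩ := exists_isRed_combination h ht hw hli q hq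
    have hf0 : ∑ i, (q i : F) * w i ≠ 0 := by
      intro h0
      rw [h0, mul_zero] at hz
      exact hz0 (hz.unique R.isRed_zero)
    have h1 := mul_mem (hz.inv hz0).mem hf
    rw [mul_inv, inv_inv, mul_assoc, inv_mul_cancel₀ hf0, mul_one] at h1
    have h2 := mul_mem h1 (hj i)
    rw [mul_inv_cancel_left₀ hj0] at h2
    exact h2
  · push Not at hq
    rw [hq i]
    exact zero_mem _

/-- elements with independent reductions over `k(xb)` are independent over `K(x)`. -/
theorem linearIndependent_lift (h : R.IsRed x xb) (ht : Transcendental k xb) {ι : Type*} [Finite ι]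
    {w : ι → F} {wb : ι → Fk} (hw : ∀ i, R.IsRed (w i) (wb i))
    (hli : LinearIndependent k⟮xb⟯ wb) : LinearIndependent K⟮x⟯ w := by
  classical
  cases nonempty_fintype ι
  rw [Fintype.linearIndependent_iff]
  intro g hg
  by_contra hi
  push Not at hi
  obtain ⟨j, hj0, -, z, hz0, hz⟩ := exists_isRed_combination h ht hw hli g hi
  have h2 : ∑ i, (g i : F) * w i = 0 := by
    simpa only [IntermediateField.smul_def, smul_eq_mul] using hg
  rw [h2, mul_zero] at hz
  exact hz0 (hz.unique R.isRed_zero)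

end Basis

end Fermat.Agent.GoodRed
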