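import Mathlib.LinearAlgebra.Basis.VectorSpace
import Mathlib.Algebra.Polynomial.AlgebraMap
import Mathlib.RingTheory.Polynomial.Basic

/-!
# Reduced bases for filtrations stable under multiplication by `x`
-/

set_option autoImplicit false
set_option linter.unusedSectionVars false

open Polynomial

namespace Fermat.Agent.GoodRed

variable {K F : Type*} [Field K] [Field F] [Algebra K F]

theorem filter_eq_embDomain_split {M ι : Type*} {αs : ι → Type*} [DecidableEq ι] [Zero M]
    (c : (Σ i, αs i) →₀ M) (m : ι) :
    c.filter (fun i => i.1 = m) =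
      Finsupp.embDomain (⟨Sigma.mk m, sigma_mk_injective⟩ : αs m ↪ Σ i, αs i) (c.split m) := by
  classical
  ext ⟨n, j⟩
  by_cases hn : n = m
  · subst hn
    refine Eq.trans ?_ (Finsupp.embDomain_apply_self
      (⟨Sigma.mk n, sigma_mk_injective⟩ : αs n ↪ Σ i, αs i) (c.split n) j).symm
    rw [Finsupp.split_apply, Finsupp.filter_apply_pos]
    rfl
  · rw [Finsupp.filter_apply_neg (fun i => i.1 = m) c hn, Finsupp.embDomain_of_notMem_range]
    rintro ⟨j', hj'⟩
    exact hn (congrArg Sigma.fst hj').symm

/-- the previous step of a filtration indexed by `ℕ` (with `0` in degree `-1`). -/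
def prevStep (L : ℕ → Submodule K F) : ℕ → Submodule K F
  | 0 => ⊥
  | m + 1 => L m

/-- Filtrations to which the reduced basis theorem applies. -/
structure IsFilt (x : F) (L : ℕ → Submodule K F) : Prop where
  mono : ∀ m, L m ≤ L (m + 1)
  mul_mem : ∀ m, ∀ f ∈ L m, x * f ∈ L (m + 1)
  of_mul_mem : ∀ m, ∀ f ∈ L m, x * f ∈ L m → f ∈ prevStep L m

section Abstract

variable {x : F} {L : ℕ → Submodule K F}

theorem IsFilt.mono' (h : IsFilt x L) {m n : ℕ} (hmn : m ≤ n) : L m ≤ L n :=
  monotone_nat_of_le_succ h.mono hmn

theorem IsFilt.prev_le (h : IsFilt x L) (m : ℕ) : prevStep L m ≤ L m := by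
  cases m with
  | zero => exact bot_le
  | succ m => exact h.mono m

theorem IsFilt.mul_prev_mem (h : IsFilt x L) (m : ℕ) (f : F) (hf : f ∈ prevStep L m) :
    x * f ∈ L m := by
  cases m with
  | zero => rw [(Submodule.mem_bot K).1 hf, mul_zero]; exact zero_mem _
  | succ m => exact h.mul_mem m f hf

theorem IsFilt.pow_mul_mem (h : IsFilt x L) {m j n : ℕ} (f : F) (hf : f ∈ L m) (hmn : j + m ≤ n) :
    x ^ j * f ∈ L n := by
  apply h.mono' hmn
  clear hmn
  induction j with
  | zero => simpa using hf
  | succ j ih =>
    rw [pow_succ', mul_assoc, show j + 1 + m = j + m + 1 by ring]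
    exact h.mul_mem _ _ ih

/-- A complement of `L' m + x L' m` in `L m`. -/
theorem exists_compl (h : IsFilt x L) (m : ℕ) : ∃ C : Submodule K F, C ≤ L m ∧
    Disjoint (prevStep L m ⊔ (prevStep L m).map (LinearMap.mulLeft K x)) C ∧
    (prevStep L m ⊔ (prevStep L m).map (LinearMap.mulLeft K x)) ⊔ C = L m := by
  set N := prevStep L m ⊔ (prevStep L m).map (LinearMap.mulLeft K x) with hN
  have hNL : N ≤ L m := by
    rw [hN, sup_le_iff, Submodule.map_le_iff_le_comap]
    exact ⟨h.prev_le m, fun f hf => h.mul_prev_mem m f hf⟩
  obtain ⟨D, hD⟩ := Submodule.exists_isCompl N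
  refine ⟨D ⊓ L m, inf_le_right, hD.disjoint.mono_right inf_le_left, ?_⟩
  rw [← sup_inf_assoc_of_le _ hNL, hD.sup_eq_top, top_inf_eq]

/-- The chosen complement. -/
noncomputable def cpl (h : IsFilt x L) (m : ℕ) : Submodule K F := (exists_compl h m).choose

theorem cpl_le (h : IsFilt x L) (m : ℕ) : cpl h m ≤ L m := (exists_compl h m).choose_spec.1

theorem cpl_disjoint (h : IsFilt x L) (m : ℕ) :
    Disjoint (prevStep L m ⊔ (prevStep L m).map (LinearMap.mulLeft K x)) (cpl h m) :=
  (exists_compl h m).choose_spec.2.1

theorem cpl_sup (h : IsFilt x L) (m : ℕ) :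
    (prevStep L m ⊔ (prevStep L m).map (LinearMap.mulLeft K x)) ⊔ cpl h m = L m :=
  (exists_compl h m).choose_spec.2.2

/-- index type of the reduced basis. -/
abbrev RIdx (h : IsFilt x L) : Type _ := Σ m : ℕ, Module.Basis.ofVectorSpaceIndex K (cpl h m)

/-- the reduced basis. -/
noncomputable def rbas (h : IsFilt x L) (i : RIdx h) : F :=
  (Module.Basis.ofVectorSpace K (cpl h i.1) i.2 : F)

/-- the degrees of the reduced basis. -/
def rdeg (h : IsFilt x L) (i : RIdx h) : ℕ := i.1

theorem rbas_mem (h : IsFilt x L) (i : RIdx h) : rbas h i ∈ L (rdeg h i) :=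
  cpl_le h i.1 (Subtype.property _)

/-- linear combinations with polynomial coefficients. -/
noncomputable def comb (x : F) {I : Type*} (w : I → F) (p : I →₀ K[X]) : F :=
  p.sum fun i q => aeval x q * w i

theorem comb_add {I : Type*} (w : I → F) (p q : I →₀ K[X]) :
    comb x w (p + q) = comb x w p + comb x w q := by
  classical
  unfold comb
  rw [Finsupp.sum_add_index']
  · intro i; simp
  · intro i a b; rw [map_add, add_mul]

theorem comb_single {I : Type*} (w : I → F) (i : I) (q : K[X]) :
    comb x w (Finsupp.single i q) = aeval x q * w i := by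
  rw [comb, Finsupp.sum_single_index]; simp

theorem comb_zero {I : Type*} (w : I → F) : comb x w (0 : I →₀ K[X]) = 0 := by
  rw [comb, Finsupp.sum_zero_index]

theorem comb_mapRange_mul {I : Type*} (w : I → F) (p : I →₀ K[X]) :
    comb x w ((X : K[X]) • p) = x * comb x w p := by
  induction p using Finsupp.induction_linear with
  | zero => rw [smul_zero, comb_zero, mul_zero]
  | add f g hf hg => rw [smul_add, comb_add, comb_add, hf, hg, mul_add]
  | single i q => rw [Finsupp.smul_single, comb_single, comb_single, smul_eq_mul, map_mul,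
      aeval_X, mul_assoc]

/-- spanning: every element of `L m` is a combination of the reduced basis. -/
theorem exists_comb (h : IsFilt x L) (m : ℕ) (f : F) (hf : f ∈ L m) :
    ∃ p : RIdx h →₀ K[X], comb x (rbas h) p = f := by
  induction m using Nat.strong_induction_on generalizing f with
  | _ m ih =>
    rw [← cpl_sup h m, Submodule.mem_sup] at hf
    obtain ⟨g, hg, u, hu, rfl⟩ := hf
    rw [Submodule.mem_sup] at hg
    obtain ⟨g1, hg1, g2, hg2, rfl⟩ := hg
    rw [Submodule.mem_map] at hg2
    obtain ⟨g3, hg3, rfl⟩ := hg2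
    have hprev : ∀ g ∈ prevStep L m, ∃ p : RIdx h →₀ K[X], comb x (rbas h) p = g := by
      intro g hg
      cases m with
      | zero => exact ⟨0, by rw [comb_zero, (Submodule.mem_bot K).1 hg]⟩
      | succ m => exact ih m (Nat.lt_succ_self m) g hg
    obtain ⟨p1, hp1⟩ := hprev g1 hg1
    obtain ⟨p3, hp3⟩ := hprev g3 hg3
    have hu' : ∃ p : RIdx h →₀ K[X], comb x (rbas h) p = u := by
      have h1 := (Module.Basis.ofVectorSpace K (cpl h m)).linearCombination_repr ⟨u, hu⟩
      set c := (Module.Basis.ofVectorSpace K (cpl h m)).repr ⟨u, hu⟩ with hc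
      have h2 : u = c.sum fun i a => a • ((Module.Basis.ofVectorSpace K (cpl h m) i : cpl h m) : F) := by
        have h3 := congrArg (Submodule.subtype (cpl h m)) h1
        rw [Finsupp.linearCombination_apply, Finsupp.sum, map_sum] at h3
        exact h3.symm
      rw [h2]
      clear_value c
      clear h1 h2 hc
      induction c using Finsupp.induction_linear with
      | zero => exact ⟨0, by rw [comb_zero, Finsupp.sum_zero_index]⟩
      | add c1 c2 h1 h2 =>
        obtain ⟨p1, hp1⟩ := h1
        obtain ⟨p2, hp2⟩ := h2
        refine ⟨p1 + p2, ?_⟩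
        rw [comb_add, hp1, hp2, Finsupp.sum_add_index']
        · intro i; rw [zero_smul]
        · intro i a b; rw [add_smul]
      | single i a =>
        refine ⟨Finsupp.single ⟨m, i⟩ (C a), ?_⟩
        rw [comb_single, Finsupp.sum_single_index (by rw [zero_smul]), aeval_C, Algebra.smul_def]
        rfl
    obtain ⟨p2, hp2⟩ := hu'
    refine ⟨p1 + (X : K[X]) • p3 + p2, ?_⟩
    rw [comb_add, comb_add, comb_mapRange_mul, hp1, hp2, hp3]
    rfl

/-- the key independence statement, on leading coefficients. -/
theorem lead_eq_zero (h : IsFilt x L) (m : ℕ) (c : RIdx h →₀ K)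
    (hc : ∀ i ∈ c.support, rdeg h i ≤ m)
    (hs : (c.sum fun i a => a • (x ^ (m - rdeg h i) * rbas h i)) ∈ prevStep L m) : c = 0 := by
  classical
  induction m using Nat.strong_induction_on generalizing c with
  | _ m ih =>
    set c1 := c.filter (fun i => rdeg h i = m) with hc1
    set c2 := c.filter (fun i => ¬ rdeg h i = m) with hc2
    have hc12 : c1 + c2 = c := Finsupp.filter_add_filter_not c _
    set g := c2.sum fun i a => a • (x ^ (m - 1 - rdeg h i) * rbas h i) with hg
    have hc2m : ∀ i ∈ c2.support, rdeg h i < m := by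
      intro i hi
      rw [hc2, Finsupp.support_filter, Finset.mem_filter] at hi
      exact lt_of_le_of_ne (hc i hi.1) hi.2
    have hs2 : (c2.sum fun i a => a • (x ^ (m - rdeg h i) * rbas h i)) = x * g := by
      rw [hg, Finsupp.sum, Finsupp.sum, Finset.mul_sum]
      refine Finset.sum_congr rfl fun i hi => ?_
      have h1 := hc2m i hi
      have h2 : m - rdeg h i = (m - 1 - rdeg h i) + 1 := by omega
      rw [h2, pow_succ', mul_assoc, mul_smul_comm]
    have hgmem : g ∈ prevStep L m := by
      cases m with
      | zero =>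
        have : g = 0 := by
          rw [hg, Finsupp.sum]
          refine Finset.sum_eq_zero fun i hi => ?_
          exact absurd (hc2m i hi) (Nat.not_lt_zero _)
        rw [this]; exact zero_mem _
      | succ m =>
        rw [hg, Finsupp.sum]
        refine Submodule.sum_mem _ fun i hi => Submodule.smul_mem _ _ ?_
        refine h.pow_mul_mem _ (rbas_mem h i) ?_
        have := hc2m i hi
        omega
    -- the part in the complement
    let e : Module.Basis.ofVectorSpaceIndex K (cpl h m) →₀ K := c.split m
    have hc1e : c1 = Finsupp.embDomain ⟨Sigma.mk m, sigma_mk_injective⟩ e :=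
      filter_eq_embDomain_split c m
    have hs1 : (c1.sum fun i a => a • (x ^ (m - rdeg h i) * rbas h i)) =
        ((Finsupp.linearCombination K (Module.Basis.ofVectorSpace K (cpl h m)) e : cpl h m) : F) := by
      rw [hc1e, Finsupp.sum_embDomain, Finsupp.linearCombination_apply, Finsupp.sum, Finsupp.sum]
      rw [show ((∑ a ∈ e.support, e a • (Module.Basis.ofVectorSpace K (cpl h m)) a : cpl h m) : F) =
        Submodule.subtype _ (∑ a ∈ e.support, e a • (Module.Basis.ofVectorSpace K (cpl h m)) a)
        from rfl, map_sum]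
      refine Finset.sum_congr rfl fun j hj => ?_
      rw [map_smul]
      congr 1
      change x ^ (m - m) * _ = _
      rw [Nat.sub_self, pow_zero, one_mul]
      rfl
    have hs12 : (c.sum fun i a => a • (x ^ (m - rdeg h i) * rbas h i)) =
        (c1.sum fun i a => a • (x ^ (m - rdeg h i) * rbas h i)) + x * g := by
      rw [← hs2, ← Finsupp.sum_add_index', hc12]
      · intro i; rw [zero_smul]
      · intro i a b; rw [add_smul]
    have hzero : (c1.sum fun i a => a • (x ^ (m - rdeg h i) * rbas h i)) = 0 := by
      have h1 : (c1.sum fun i a => a • (x ^ (m - rdeg h i) * rbas h i)) ∈ cpl h m := by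
        rw [hs1]; exact Subtype.property _
      have h2 : (c1.sum fun i a => a • (x ^ (m - rdeg h i) * rbas h i)) ∈
          prevStep L m ⊔ (prevStep L m).map (LinearMap.mulLeft K x) := by
        have h3 : (c1.sum fun i a => a • (x ^ (m - rdeg h i) * rbas h i)) =
            (c.sum fun i a => a • (x ^ (m - rdeg h i) * rbas h i)) + x * (-g) := by
          rw [hs12]; ring
        rw [h3]
        exact Submodule.add_mem_sup hs (Submodule.mem_map_of_mem (neg_mem hgmem))
      exact (Submodule.disjoint_def.1 (cpl_disjoint h m)) _ h2 h1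
    have he : e = 0 := by
      rw [hs1, ZeroMemClass.coe_eq_zero] at hzero
      exact (linearIndependent_iff.1 (Module.Basis.ofVectorSpace K (cpl h m)).linearIndependent) e
        hzero
    have hc10 : c1 = 0 := by rw [hc1e, he, Finsupp.embDomain_zero]
    rw [hc10, zero_add] at hc12
    rw [hc10, Finsupp.sum_zero_index, zero_add] at hs12
    rw [← hc12]
    cases m with
    | zero =>
      ext i
      by_contra hi
      exact absurd (hc2m i (by simpa using hi)) (Nat.not_lt_zero _)
    | succ m =>
      refine ih m (Nat.lt_succ_self m) c2 (fun i hi => Nat.lt_succ_iff.1 (hc2m i hi)) ?_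
      rw [hs12] at hs
      exact h.of_mul_mem m g hgmem hs

/-- combinations with coefficients of bounded degrees lie in `L m`. -/
theorem comb_mem (h : IsFilt x L) (m : ℕ) (p : RIdx h →₀ K[X])
    (hp : ∀ i j, m < j + rdeg h i → (p i).coeff j = 0) : comb x (rbas h) p ∈ L m := by
  rw [comb, Finsupp.sum]
  refine Submodule.sum_mem _ fun i _ => ?_
  rw [aeval_eq_sum_range, Finset.sum_mul]
  refine Submodule.sum_mem _ fun j _ => ?_
  rw [smul_mul_assoc]
  by_cases hj : m < j + rdeg h i
  · rw [hp i j hj, zero_smul]; exact zero_mem _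
  · exact Submodule.smul_mem _ _ (h.pow_mul_mem _ (rbas_mem h i) (not_lt.1 hj))

/-- reducedness of the basis -/
theorem coeff_eq_zero_aux (h : IsFilt x L) (m e : ℕ) (p : RIdx h →₀ K[X])
    (hb : ∀ i j, m + e < j + rdeg h i → (p i).coeff j = 0)
    (hp : comb x (rbas h) p ∈ L m) (i : RIdx h) (j : ℕ) (hij : m < j + rdeg h i) :
    (p i).coeff j = 0 := by
  classical
  induction e generalizing p i j with
  | zero => exact hb i j hij
  | succ e ih =>
    set M := m + (e + 1) with hM
    let t : RIdx h → K := fun i => if rdeg h i ≤ M then (p i).coeff (M - rdeg h i) else 0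
    have ht0 : ∀ i, p i = 0 → t i = 0 := by
      intro i hi
      simp only [t, hi, coeff_zero, ite_self]
    let c : RIdx h →₀ K := Finsupp.onFinset p.support t (by
      intro i hi
      rw [Finsupp.mem_support_iff]
      exact fun h0 => hi (ht0 i h0))
    let p' : RIdx h →₀ K[X] := Finsupp.onFinset p.support
      (fun i => p i - C (t i) * X ^ (M - rdeg h i)) (by
      intro i hi
      rw [Finsupp.mem_support_iff]
      intro h0
      apply hi
      simp only [h0, ht0 i h0, map_zero, zero_mul, sub_zero])
    have hp'b : ∀ i j, m + e < j + rdeg h i → (p' i).coeff j = 0 := by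
      intro i j hij
      simp only [p', Finsupp.onFinset_apply, coeff_sub, coeff_C_mul, coeff_X_pow, t]
      by_cases h1 : rdeg h i ≤ M
      · rw [if_pos h1]
        by_cases h2 : j = M - rdeg h i
        · rw [if_pos h2, h2]; ring
        · rw [if_neg h2, mul_zero, sub_zero]
          apply hb
          omega
      · rw [if_neg h1, zero_mul, sub_zero]
        apply hb
        omega
    have hsplit : comb x (rbas h) p =
        (c.sum fun i a => a • (x ^ (M - rdeg h i) * rbas h i)) + comb x (rbas h) p' := by
      have h1 : comb x (rbas h) p = ∑ i ∈ p.support, aeval x (p i) * rbas h i := rfl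
      have h2 : comb x (rbas h) p' = ∑ i ∈ p.support, aeval x (p' i) * rbas h i := by
        refine Finset.sum_subset Finsupp.support_onFinset_subset fun i _ hi => ?_
        change aeval x (p' i) * rbas h i = 0
        rw [Finsupp.notMem_support_iff.1 hi, map_zero, zero_mul]
      have h3 : (c.sum fun i a => a • (x ^ (M - rdeg h i) * rbas h i)) =
          ∑ i ∈ p.support, t i • (x ^ (M - rdeg h i) * rbas h i) := by
        refine Finset.sum_subset Finsupp.support_onFinset_subset fun i _ hi => ?_
        change t i • (x ^ (M - rdeg h i) * rbas h i) = 0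
        have : t i = 0 := Finsupp.notMem_support_iff.1 hi
        rw [this, zero_smul]
      rw [h1, h2, h3, ← Finset.sum_add_distrib]
      refine Finset.sum_congr rfl fun i _ => ?_
      simp only [p', Finsupp.onFinset_apply, map_sub, map_mul, aeval_C, map_pow, aeval_X,
        Algebra.smul_def]
      ring
    have hc : c = 0 := by
      apply lead_eq_zero h M c
      · intro i hi
        by_contra h1
        apply Finsupp.mem_support_iff.1 hi
        simp only [c, Finsupp.onFinset_apply, t, if_neg h1]
      · have h1 : (c.sum fun i a => a • (x ^ (M - rdeg h i) * rbas h i)) =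
            comb x (rbas h) p - comb x (rbas h) p' := by rw [hsplit]; ring
        rw [h1, hM]
        change _ ∈ L (m + e)
        exact sub_mem (h.mono' (Nat.le_add_right m e) hp) (comb_mem h (m + e) p' hp'b)
    refine ih p ?_ hp i j hij
    intro i j hij
    by_cases h1 : m + (e + 1) < j + rdeg h i
    · exact hb i j h1
    · have h2 : j = M - rdeg h i := by omega
      have h3 : rdeg h i ≤ M := by omega
      have h4 : c i = 0 := by rw [hc]; rfl
      simp only [c, Finsupp.onFinset_apply, t, if_pos h3] at h4
      rw [h2]; exact h4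

theorem coeff_eq_zero (h : IsFilt x L) (m : ℕ) (p : RIdx h →₀ K[X])
    (hp : comb x (rbas h) p ∈ L m) (i : RIdx h) (j : ℕ) (hij : m < j + rdeg h i) :
    (p i).coeff j = 0 := by
  classical
  refine coeff_eq_zero_aux h m (p.support.sup fun i => (p i).natDegree + rdeg h i) p ?_ hp i j hij
  intro i j hij
  by_cases hi : i ∈ p.support
  · apply coeff_eq_zero_of_natDegree_lt
    have := Finset.le_sup (f := fun i => (p i).natDegree + rdeg h i) hi
    omega
  · rw [Finsupp.notMem_support_iff.1 hi, coeff_zero]

/-- independence of the reduced basis. -/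
theorem eq_zero_of_comb_eq_zero (h : IsFilt x L) (p : RIdx h →₀ K[X])
    (hp : comb x (rbas h) p = 0) : p = 0 := by
  classical
  have h1 : ∀ i j, 0 < j + rdeg h i → (p i).coeff j = 0 := by
    intro i j hij
    exact coeff_eq_zero h 0 p (by rw [hp]; exact zero_mem _) i j hij
  -- the only possible coefficients are in degree 0
  let c : RIdx h →₀ K := p.mapRange (fun q => q.coeff 0) (coeff_zero 0)
  have h2 : ∀ i, p i = C (c i) := by
    intro i
    ext j
    rw [coeff_C]
    by_cases hj : j = 0
    · rw [if_pos hj, hj]; rfl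
    · rw [if_neg hj]; exact h1 i j (by omega)
  have hc : c = 0 := by
    apply lead_eq_zero h 0 c
    · intro i hi
      by_contra h3
      apply Finsupp.mem_support_iff.1 hi
      change (p i).coeff 0 = 0
      exact h1 i 0 (by omega)
    · have h3 : (c.sum fun i a => a • (x ^ (0 - rdeg h i) * rbas h i)) = comb x (rbas h) p := by
        rw [comb, Finsupp.sum, Finsupp.sum]
        rw [Finset.sum_subset (Finsupp.support_mapRange (f := fun q : K[X] => q.coeff 0)
          (hf := coeff_zero 0) (g := p))]
        · refine Finset.sum_congr rfl fun i _ => ?_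
          rw [h2 i, aeval_C, Nat.zero_sub, pow_zero, one_mul, Algebra.smul_def]
        · intro i _ hi
          have : c i = 0 := Finsupp.notMem_support_iff.1 hi
          rw [this, zero_smul]
      rw [h3, hp]
      exact zero_mem _
  ext i : 1
  rw [h2 i, hc]
  simp

end Abstract

end Fermat.Agent.GoodRed
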