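import Fermat.Agent.GoodRed.Graded
import Fermat.Agent.FF.Divisor
import Mathlib.FieldTheory.Minpoly.IsIntegrallyClosed
import Mathlib.RingTheory.Polynomial.DegreeLT
import Mathlib.RingTheory.Localization.Module

/-!
# The filtration `L m = L(m (x)_∞)` of a function field
-/

set_option autoImplicit false
set_option linter.unusedSectionVars false
set_option linter.style.haveILetI false

open AlgebraicCurve IntermediateField Polynomial
open scoped IntermediateField.algebraAdjoinAdjoin

namespace Fermat.Agent.GoodRed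

variable {K F : Type*} [Field K] [Field F] [Algebra K F]

variable (K) in
/-- `f` is integral over `K[x]`. -/
def IsInt (x f : F) : Prop := IsIntegral (Algebra.adjoin K {x}) f

section IsInt

variable {x f g : F}

theorem IsInt.add (hf : IsInt K x f) (hg : IsInt K x g) : IsInt K x (f + g) := IsIntegral.add hf hg
theorem IsInt.mul (hf : IsInt K x f) (hg : IsInt K x g) : IsInt K x (f * g) := IsIntegral.mul hf hg
theorem IsInt.pow (hf : IsInt K x f) (n : ℕ) : IsInt K x (f ^ n) := IsIntegral.pow hf n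

theorem isInt_aeval (x : F) (p : K[X]) : IsInt K x (aeval x p) := by
  have : aeval x p = algebraMap (Algebra.adjoin K {x}) F ⟨aeval x p, aeval_mem_adjoin_singleton K x⟩ :=
    rfl
  rw [IsInt, this]
  exact isIntegral_algebraMap

theorem isInt_algebraMap (x : F) (a : K) : IsInt K x (algebraMap K F a) := by
  have := isInt_aeval x (C a)
  rwa [aeval_C] at this

theorem isInt_self (x : F) : IsInt K x x := by
  have := isInt_aeval (K := K) x X
  rwa [aeval_X] at this

theorem isInt_zero (x : F) : IsInt K x 0 := isIntegral_zero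

theorem IsInt.sum {ι : Type*} (s : Finset ι) {f : ι → F} (hf : ∀ i ∈ s, IsInt K x (f i)) :
    IsInt K x (∑ i ∈ s, f i) :=
  IsIntegral.sum (R := Algebra.adjoin K {x}) f hf

theorem IsInt.smul (hf : IsInt K x f) (a : K) : IsInt K x (a • f) := by
  rw [Algebra.smul_def]
  exact (isInt_algebraMap x a).mul hf

end IsInt

/-- the lattice of functions with poles at most `m (x)_∞`. -/
def Lm (K : Type*) {F : Type*} [Field K] [Field F] [Algebra K F] (x : F) (m : ℕ) :
    Submodule K F where
  carrier := {f | IsInt K x f ∧ IsInt K x⁻¹ (x⁻¹ ^ m * f)}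
  zero_mem' := ⟨isInt_zero x, by rw [mul_zero]; exact isInt_zero _⟩
  add_mem' := by
    rintro a b ⟨h1, h2⟩ ⟨h3, h4⟩
    exact ⟨h1.add h3, by rw [mul_add]; exact h2.add h4⟩
  smul_mem' := by
    rintro c f ⟨h1, h2⟩
    exact ⟨h1.smul c, by rw [mul_smul_comm]; exact h2.smul c⟩

theorem mem_Lm {x : F} {m : ℕ} {f : F} :
    f ∈ Lm K x m ↔ IsInt K x f ∧ IsInt K x⁻¹ (x⁻¹ ^ m * f) := Iff.rfl

section Reverse

variable {x : F}

/-- `x^{-n} p(x)` as a polynomial in `x⁻¹`. -/
theorem exists_aeval_inv (hx : x ≠ 0) (p : K[X]) (n : ℕ) (hn : p.natDegree ≤ n) :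
    x⁻¹ ^ n * aeval x p = aeval x⁻¹ (∑ j ∈ Finset.range (n + 1), C (p.coeff j) * X ^ (n - j)) := by
  rw [aeval_eq_sum_range' (Nat.lt_succ_of_le hn), Finset.mul_sum, map_sum]
  refine Finset.sum_congr rfl fun j hj => ?_
  have hj' : j ≤ n := Nat.lt_succ_iff.1 (Finset.mem_range.1 hj)
  rw [map_mul, aeval_C, map_pow, aeval_X, Algebra.smul_def, inv_pow, inv_pow]
  have h1 : x ^ n = x ^ (n - j) * x ^ j := by rw [← pow_add, Nat.sub_add_cancel hj']
  have h2 : x ^ (n - j) ≠ 0 := pow_ne_zero _ hx
  have h3 : x ^ j ≠ 0 := pow_ne_zero _ hx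
  rw [h1]
  field_simp

/-- a Laurent relation between polynomials in `x` and `x⁻¹`. -/
theorem natDegree_add_le_of_eq (hx : Transcendental K x) (a d : ℕ) (p q : K[X]) (hp : p ≠ 0)
    (h : x ^ a * aeval x p = x ^ d * aeval x⁻¹ q) : a + p.natDegree ≤ d := by
  have hx0 : x ≠ 0 := FF.transcendental_ne_zero hx
  have h1 : x ^ q.natDegree * aeval x⁻¹ q =
      aeval x (∑ j ∈ Finset.range (q.natDegree + 1), C (q.coeff j) * X ^ (q.natDegree - j)) := by
    have := exists_aeval_inv (K := K) (inv_ne_zero hx0) q q.natDegree le_rfl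
    rwa [inv_inv] at this
  set q' := ∑ j ∈ Finset.range (q.natDegree + 1), C (q.coeff j) * X ^ (q.natDegree - j) with hq'
  have hdeg : q'.natDegree ≤ q.natDegree := by
    apply natDegree_sum_le_of_forall_le
    intro j _
    refine (natDegree_C_mul_X_pow_le _ _).trans (Nat.sub_le _ _)
  have h2 : aeval x (X ^ (a + q.natDegree) * p - X ^ d * q') = 0 := by
    rw [map_sub, map_mul, map_mul, map_pow, map_pow, aeval_X, ← h1, pow_add]
    have : x ^ a * x ^ q.natDegree * aeval x p = x ^ q.natDegree * (x ^ a * aeval x p) := by ring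
    rw [this, h]
    ring
  have h3 : X ^ (a + q.natDegree) * p - X ^ d * q' = 0 := by
    by_contra h4
    exact hx ⟨_, h4, h2⟩
  rw [sub_eq_zero] at h3
  have h4 := congrArg natDegree h3
  rw [natDegree_X_pow_mul _ hp] at h4
  have h5 : (X ^ d * q').natDegree ≤ d + q'.natDegree := by
    refine natDegree_mul_le.trans ?_
    rw [natDegree_X_pow]
  omega

/-- an element of `K[x] ∩ K[x⁻¹]` is constant. -/
theorem exists_const_of_aeval_eq (hx : Transcendental K x) (p q : K[X])
    (h : aeval x p = aeval x⁻¹ q) : ∃ a : K, aeval x p = algebraMap K F a := by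
  rcases eq_or_ne p 0 with rfl | hp
  · exact ⟨0, by simp⟩
  have h1 := natDegree_add_le_of_eq hx 0 0 p q hp (by rw [pow_zero, one_mul, one_mul, h])
  rw [zero_add, Nat.le_zero] at h1
  refine ⟨p.coeff 0, ?_⟩
  rw [eq_C_of_natDegree_eq_zero h1]
  simp

end Reverse

section Const

variable {x : F}

theorem transcendental_inv (hx : Transcendental K x) : Transcendental K x⁻¹ := by
  intro h
  apply hx
  have := h.inv
  rwa [inv_inv] at this

theorem adjoin_inv (x : F) : K⟮x⁻¹⟯ = K⟮x⟯ := by
  apply le_antisymm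
  · rw [adjoin_simple_le_iff]
    exact inv_mem (mem_adjoin_simple_self K x)
  · rw [adjoin_simple_le_iff]
    have := inv_mem (mem_adjoin_simple_self K x⁻¹)
    rwa [inv_inv] at this

theorem coeff_minpoly_congr {E E' : IntermediateField K F} (h : E = E') (f : F) (i : ℕ) :
    (((minpoly E f).coeff i : E) : F) = ((minpoly E' f).coeff i : E') := by
  subst h; rfl

theorem trace_congr {E E' : IntermediateField K F} (h : E = E') (f : F) :
    ((Algebra.trace E F f : E) : F) = (Algebra.trace E' F f : E') := by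
  subst h; rfl

theorem finiteDimensional_inv [h : FiniteDimensional K⟮x⟯ F] : FiniteDimensional K⟮x⁻¹⟯ F := by
  rw [adjoin_inv]; exact h

theorem exists_coeff_minpoly (hx : Transcendental K x) {f : F} (hf : IsInt K x f) (i : ℕ) :
    ∃ p : K[X], (((minpoly K⟮x⟯ f).coeff i : K⟮x⟯) : F) = aeval x p := by
  have h1 : minpoly K⟮x⟯ f = _ := minpoly.isIntegrallyClosed_eq_field_fractions K⟮x⟯ F hf
  obtain ⟨p, hp⟩ := FF.exists_poly x ((minpoly (Algebra.adjoin K {x}) f).coeff i)
  refine ⟨p, ?_⟩
  rw [← hp, h1, coeff_map]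
  rfl

/-- functions without poles are constant. -/
theorem exists_const [IsAlgClosed K] (hx : Transcendental K x) {f : F} (hf : IsInt K x f)
    (hf' : IsInt K x⁻¹ f) : ∃ a : K, f = algebraMap K F a := by
  have hcoef : ∀ i, ∃ a : K, (((minpoly K⟮x⟯ f).coeff i : K⟮x⟯) : F) = algebraMap K F a := by
    intro i
    obtain ⟨p, hp⟩ := exists_coeff_minpoly hx hf i
    obtain ⟨q, hq⟩ := exists_coeff_minpoly (transcendental_inv hx) hf' i
    rw [coeff_minpoly_congr (adjoin_inv x)] at hq
    obtain ⟨a, ha⟩ := exists_const_of_aeval_eq hx p q (by rw [← hp, hq])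
    exact ⟨a, by rw [hp, ha]⟩
  choose a ha using hcoef
  have hint : IsIntegral K⟮x⟯ f := by
    have h1 : IsIntegral K⟮x⟯ f := IsIntegral.tower_top (R := Algebra.adjoin K {x}) hf
    exact h1
  have halg : IsIntegral K f := by
    refine ⟨∑ i ∈ Finset.range ((minpoly K⟮x⟯ f).natDegree), C (a i) * X ^ i +
      X ^ (minpoly K⟮x⟯ f).natDegree, ?_, ?_⟩
    · rw [add_comm]
      apply monic_X_pow_add
      refine (degree_sum_le _ _).trans_lt ?_
      refine (Finset.sup_lt_iff (WithBot.bot_lt_coe _)).2 fun i hi => ?_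
      refine (degree_C_mul_X_pow_le i _).trans_lt ?_
      exact WithBot.coe_lt_coe.2 (Finset.mem_range.1 hi)
    · have h3 : aeval f (minpoly K⟮x⟯ f) = 0 := minpoly.aeval _ _
      rw [aeval_eq_sum_range, Finset.sum_range_succ, (minpoly.monic hint).coeff_natDegree,
        one_smul] at h3
      rw [eval₂_add, eval₂_X_pow, eval₂_finsetSum, ← h3]
      congr 1
      refine Finset.sum_congr rfl fun i _ => ?_
      rw [eval₂_mul, eval₂_C, eval₂_X_pow, IntermediateField.smul_def, smul_eq_mul, ha]
  obtain ⟨b, hb⟩ := (IsAlgClosed.algebraMap_bijective_of_isIntegral (k := K)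
    (K := integralClosure K F)).2 ⟨f, halg⟩
  exact ⟨b, (congrArg Subtype.val hb).symm⟩

/-- the filtration `L m` admits a reduced basis. -/
theorem isFilt [IsAlgClosed K] (hx : Transcendental K x) : IsFilt x (Lm K x) where
  mono := by
    intro m f hf
    refine ⟨hf.1, ?_⟩
    rw [pow_succ', mul_assoc]
    exact (isInt_self _).mul hf.2
  mul_mem := by
    intro m f hf
    have hx0 : x ≠ 0 := FF.transcendental_ne_zero hx
    refine ⟨(isInt_self x).mul hf.1, ?_⟩
    have : x⁻¹ ^ (m + 1) * (x * f) = x⁻¹ ^ m * f := by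
      rw [pow_succ]; field_simp
    rw [this]
    exact hf.2
  of_mul_mem := by
    intro m f hf hxf
    have hx0 : x ≠ 0 := FF.transcendental_ne_zero hx
    cases m with
    | zero =>
      obtain ⟨a, ha⟩ := exists_const hx hf.1 (by simpa using hf.2)
      obtain ⟨b, hb⟩ := exists_const hx hxf.1 (by simpa using hxf.2)
      change f ∈ (⊥ : Submodule K F)
      rw [Submodule.mem_bot]
      by_contra hf0
      have ha0 : algebraMap K F a ≠ 0 := by rw [← ha]; exact hf0
      apply hx
      have : x = algebraMap K F (b / a) := by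
        rw [map_div₀, eq_div_iff ha0, ← ha, ← hb]
      rw [this]
      exact isAlgebraic_algebraMap _
    | succ m =>
      refine ⟨hf.1, ?_⟩
      have := hxf.2
      have h2 : x⁻¹ ^ (m + 1) * (x * f) = x⁻¹ ^ m * f := by
        rw [pow_succ]; field_simp
      rwa [h2] at this

/-- every function integral over `K[x]` lies in some `L m`. -/
theorem exists_mem_Lm (hx : Transcendental K x) {f : F} (hf : IsInt K x f) : ∃ m, f ∈ Lm K x m := by
  have hx0 : x ≠ 0 := FF.transcendental_ne_zero hx
  obtain ⟨P, hP, hPf⟩ := id hf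
  choose p hp using fun i => FF.exists_poly x (P.coeff i)
  set d := P.natDegree with hd
  set m := (Finset.range d).sup (fun i => (p i).natDegree) with hm
  refine ⟨m, hf, ?_⟩
  -- the equation of `x⁻¹ ^ m * f`
  let q : ℕ → K[X] := fun i =>
    X ^ (m * (d - i) - m) * ∑ j ∈ Finset.range (m + 1), C ((p i).coeff j) * X ^ (m - j)
  have hq : ∀ i ∈ Finset.range d, aeval x⁻¹ (q i) = x⁻¹ ^ (m * (d - i)) * aeval x (p i) := by
    intro i hi
    have h1 : (p i).natDegree ≤ m := Finset.le_sup (f := fun i => (p i).natDegree) hi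
    have h2 : m ≤ m * (d - i) := by
      have : 1 ≤ d - i := by have := Finset.mem_range.1 hi; omega
      exact Nat.le_mul_of_pos_right m this
    simp only [q]
    rw [map_mul, map_pow, aeval_X, ← exists_aeval_inv hx0 (p i) m h1, ← mul_assoc, ← pow_add,
      Nat.sub_add_cancel h2]
  have heq : (x⁻¹ ^ m * f) ^ d + ∑ i ∈ Finset.range d, aeval x⁻¹ (q i) * (x⁻¹ ^ m * f) ^ i = 0 := by
    rw [eval₂_eq_sum_range, Finset.sum_range_succ, hP.coeff_natDegree, map_one, one_mul,
      add_comm] at hPf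
    have h3 : (x⁻¹ ^ m * f) ^ d + ∑ i ∈ Finset.range d, aeval x⁻¹ (q i) * (x⁻¹ ^ m * f) ^ i =
        x⁻¹ ^ (m * d) * (f ^ d + ∑ i ∈ Finset.range d,
          (algebraMap (Algebra.adjoin K {x}) F (P.coeff i)) * f ^ i) := by
      rw [mul_add, mul_pow, ← pow_mul, Finset.mul_sum]
      congr 1
      refine Finset.sum_congr rfl fun i hi => ?_
      rw [hq i hi, mul_pow, ← pow_mul]
      have h4 : algebraMap (Algebra.adjoin K {x}) F (P.coeff i) = aeval x (p i) := hp i
      have h5 : m * d = m * (d - i) + m * i := by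
        rw [← mul_add, Nat.sub_add_cancel (Finset.mem_range.1 hi).le]
      rw [h4, h5, pow_add]
      ring
    rw [h3, hPf, mul_zero]
  let b : ℕ → Algebra.adjoin K {x⁻¹} := fun i => ⟨aeval x⁻¹ (q i), aeval_mem_adjoin_singleton K x⁻¹⟩
  refine ⟨X ^ d + ∑ i ∈ Finset.range d, C (b i) * X ^ i, ?_, ?_⟩
  · apply monic_X_pow_add
    refine (degree_sum_le _ _).trans_lt ?_
    refine (Finset.sup_lt_iff (WithBot.bot_lt_coe d)).2 fun i hi => ?_
    refine (degree_C_mul_X_pow_le i _).trans_lt ?_
    exact WithBot.coe_lt_coe.2 (Finset.mem_range.1 hi)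
  · rw [eval₂_add, eval₂_X_pow, eval₂_finsetSum, ← heq]
    congr 1
    refine Finset.sum_congr rfl fun i _ => ?_
    rw [eval₂_mul, eval₂_C, eval₂_X_pow]
    rfl

end Const

end Fermat.Agent.GoodRed
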