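import Fermat.Agent.GoodRed.Integral
import Fermat.Agent.GoodRed.Lattice
import Mathlib.RingTheory.AlgebraTower
import Mathlib.LinearAlgebra.FiniteDimensional.Lemmas

/-!
# Reduction of finite dimensional spaces of functions
-/

set_option autoImplicit false
set_option linter.unusedSectionVars false
set_option linter.style.haveILetI false

open AlgebraicCurve IntermediateField Fermat.Agent.Red Polynomial
open scoped IntermediateField.algebraAdjoinAdjoin

namespace Fermat.Agent.GoodRed

variable {K k : Type*} [Field K] [Field k] {A : ValuationSubring K} {π : A →+* k}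

variable (π) in
/-- A subspace of `K^ι` of dimension `d` contains `d` integral vectors with independent
reductions. -/
theorem exists_family {ι : Type*} [Fintype ι] (d : ℕ) (V : Submodule K (ι → K))
    (hV : Module.finrank K V = d) :
    ∃ v : Fin d → ι → A, (∀ j, (fun i => (v j i : K)) ∈ V) ∧
      LinearIndependent k (fun j i => π (v j i)) := by
  classical
  induction d generalizing V with
  | zero => exact ⟨fun j => j.elim0, fun j => j.elim0, linearIndependent_empty_type⟩
  | succ d ih =>
    have hV0 : V ≠ ⊥ := by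
      rintro rfl
      rw [finrank_bot] at hV
      omega
    obtain ⟨u, hu, hu0⟩ := Submodule.exists_mem_ne_zero_of_ne_bot hV0
    obtain ⟨i0, -, hi0, hi⟩ := exists_scale_finset (A := A) Finset.univ u (by
      by_contra hcon
      push Not at hcon
      exact hu0 (funext fun i => hcon i (Finset.mem_univ i)))
    let v0 : ι → A := fun i => ⟨(u i0)⁻¹ * u i, hi i (Finset.mem_univ i)⟩
    have hv0 : (fun i => (v0 i : K)) ∈ V := V.smul_mem (u i0)⁻¹ hu
    have hv0i : v0 i0 = 1 := Subtype.ext (inv_mul_cancel₀ hi0)
    let φ : V →ₗ[K] K := (LinearMap.proj i0).comp V.subtype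
    have hφ : LinearMap.range φ = ⊤ := by
      rw [LinearMap.range_eq_top]
      intro a
      refine ⟨a • ⟨_, hv0⟩, ?_⟩
      rw [map_smul]
      change a • ((v0 i0 : A) : K) = a
      rw [hv0i]
      simp
    have h1 := LinearMap.finrank_range_add_finrank_ker φ
    rw [hφ, finrank_top, Module.finrank_self, hV] at h1
    let V' : Submodule K (ι → K) := (LinearMap.ker φ).map V.subtype
    have hV' : Module.finrank K V' = d := by
      have := LinearMap.finrank_range_of_inj (f := V.subtype.comp (LinearMap.ker φ).subtype)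
        ((Submodule.injective_subtype V).comp (Submodule.injective_subtype _))
      rw [LinearMap.range_comp, Submodule.range_subtype] at this
      change Module.finrank K V' = _ at this
      omega
    obtain ⟨v', hv', hli⟩ := ih V' hV'
    have hv'V : ∀ j, (fun i => (v' j i : K)) ∈ V ∧ v' j i0 = 0 := by
      intro j
      obtain ⟨y, hy, hyv⟩ := hv' j
      have h2 : (y : ι → K) = fun i => (v' j i : K) := hyv
      refine ⟨h2 ▸ y.2, ?_⟩
      have h3 : φ y = 0 := hy
      apply Subtype.ext
      have h4 : (y : ι → K) i0 = 0 := h3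
      rw [h2] at h4
      exact h4
    refine ⟨Fin.cons v0 v', fun j => ?_, ?_⟩
    · refine Fin.cases ?_ (fun j => ?_) j
      · exact hv0
      · exact (hv'V j).1
    · have h2 : (fun (j : Fin (d + 1)) i => π ((Fin.cons v0 v' : Fin (d + 1) → ι → A) j i)) =
          Fin.cons (fun i => π (v0 i)) (fun j i => π (v' j i)) := by
        funext j
        refine Fin.cases ?_ (fun j => ?_) j
        · rfl
        · rfl
      rw [h2, linearIndependent_finCons]
      refine ⟨hli, fun hmem => ?_⟩
      have h3 : ∀ y ∈ Submodule.span k (Set.range fun j i => π (v' j i)), y i0 = 0 := by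
        intro y hy
        refine Submodule.span_induction ?_ rfl ?_ ?_ hy
        · rintro _ ⟨j, rfl⟩
          simp only [(hv'V j).2, map_zero]
        · intro a b _ _ ha hb
          rw [Pi.add_apply, ha, hb, add_zero]
        · intro c a _ ha
          rw [Pi.smul_apply, ha, smul_zero]
      have h4 := h3 _ hmem
      simp only [hv0i, map_one] at h4
      exact one_ne_zero h4

variable {F Fk : Type*} [Field F] [Algebra K F] [Field Fk] [Algebra k Fk]
  {R : ConstRed A π F Fk} {x : F} {xb : Fk}

/-- the same for subspaces of `F` contained in the span of an orthonormal family -/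
theorem exists_family_of_le {ι : Type*} [Fintype ι] {e : ι → F} {eb : ι → Fk}
    (he : ∀ i, R.IsRed (e i) (eb i)) (hli : LinearIndependent k eb) (V : Submodule K F)
    (hV : ∀ f ∈ V, ∃ c : ι → K, f = ∑ i, c i • e i) :
    ∃ n, Module.finrank K V ≤ n ∧ ∃ (f : Fin n → F) (fb : Fin n → Fk),
      (∀ j, f j ∈ V) ∧ (∀ j, R.IsRed (f j) (fb j)) ∧ LinearIndependent k fb := by
  classical
  let Φ : (ι → K) →ₗ[K] F := Fintype.linearCombination K e
  let V' := V.comap Φ
  have hmap : V'.map Φ = V := by
    rw [Submodule.map_comap_eq, inf_eq_right]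
    intro f hf
    obtain ⟨c, rfl⟩ := hV f hf
    exact ⟨c, by simp [Φ, Fintype.linearCombination_apply]⟩
  obtain ⟨v, hv, hvli⟩ := exists_family π (Module.finrank K V') V' rfl
  refine ⟨Module.finrank K V', ?_, fun j => ∑ i, (v j i : K) • e i,
    fun j => ∑ i, π (v j i) • eb i, ?_, ?_, ?_⟩
  · rw [← hmap]
    exact Submodule.finrank_map_le Φ V'
  · intro j
    have := hv j
    rw [Submodule.mem_comap] at this
    simpa [Φ, Fintype.linearCombination_apply] using this
  · intro j
    refine ConstRed.isRed_sum _ fun i _ => ?_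
    rw [Algebra.smul_def, Algebra.smul_def]
    exact (R.isRed_coe (v j i)).mul (he i)
  · have h1 := hvli.map' (Fintype.linearCombination k eb) (by
      rw [LinearMap.ker_eq_bot]
      exact linearIndependent_iff_injective_fintypeLinearCombination.1 hli)
    have h2 : (fun j => ∑ i, π (v j i) • eb i) =
        ⇑(Fintype.linearCombination k eb) ∘ fun j i => π (v j i) := by
      funext j
      simp [Fintype.linearCombination_apply]
    rw [h2]
    exact h1

/-- a common denominator for a finite dimensional space of functions -/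
theorem exists_common_denominator (hc : IsCoord R x xb) {ι : Type*} [Fintype ι]
    (b : Module.Basis ι K⟮x⟯ F) (V : Submodule K F) [FiniteDimensional K V] :
    ∃ (q : A[X]) (M : ℕ), q.map π ≠ 0 ∧ ∀ f ∈ V, ∃ p : ι → K[X], (∀ i, (p i).natDegree ≤ M) ∧
      aeval x (q.map A.subtype) * f = ∑ i, aeval x (p i) * b i := by
  classical
  let v := Module.finBasis K V
  obtain ⟨y, hy⟩ := IsLocalization.exist_integer_multiples_of_finite
    (nonZeroDivisors (Algebra.adjoin K {x})) (fun t : Fin (Module.finrank K V) × ι =>
      b.repr (v t.1 : F) t.2)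
  obtain ⟨g, hg⟩ := FF.exists_poly x (y : Algebra.adjoin K {x})
  have hg0 : g ≠ 0 := by
    rintro rfl
    have h1 : (y : Algebra.adjoin K {x}) = 0 := Subtype.ext (by rw [hg]; simp)
    exact nonZeroDivisors.coe_ne_zero y h1
  obtain ⟨c, hc0, q, hq, hq0⟩ := exists_primitive (A := A) (π := π) g hg0
  have hex : ∀ t : Fin (Module.finrank K V) × ι, ∃ p : K[X],
      aeval x g * (b.repr (v t.1 : F) t.2 : F) = aeval x p := by
    intro t
    obtain ⟨z, hz⟩ := hy t
    obtain ⟨p, hp⟩ := FF.exists_poly x z
    refine ⟨p, ?_⟩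
    rw [← hg, ← hp]
    have := congrArg (algebraMap K⟮x⟯ F) hz
    rw [Algebra.smul_def, map_mul] at this
    exact this.symm
  choose p hp using hex
  have hbasis : ∀ j, aeval x g * (v j : F) = ∑ i, aeval x (p (j, i)) * b i := by
    intro j
    conv_lhs => rw [← b.sum_repr (v j : F)]
    rw [Finset.mul_sum]
    refine Finset.sum_congr rfl fun i _ => ?_
    rw [IntermediateField.smul_def, smul_eq_mul, ← mul_assoc, ← hp (j, i)]
  refine ⟨q, Finset.univ.sup fun t => (p t).natDegree, hq0, fun f hf => ?_⟩
  have h1 := v.sum_repr ⟨f, hf⟩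
  have h2 : f = ∑ j, (v.repr ⟨f, hf⟩ j) • (v j : F) := by
    have := congrArg V.subtype h1
    rw [map_sum] at this
    exact this.symm
  refine ⟨fun i => C c * ∑ j, C (v.repr ⟨f, hf⟩ j) * p (j, i), fun i => ?_, ?_⟩
  · refine (natDegree_C_mul_le _ _).trans ?_
    refine natDegree_sum_le_of_forall_le _ _ fun j _ => ?_
    refine (natDegree_C_mul_le _ _).trans ?_
    exact Finset.le_sup (f := fun t => (p t).natDegree) (Finset.mem_univ (j, i))
  · rw [hq, map_mul (aeval x), aeval_C, mul_assoc]
    conv_lhs => rw [h2]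
    rw [Finset.mul_sum]
    have h3 : ∀ j, aeval x g * ((v.repr ⟨f, hf⟩ j) • (v j : F)) =
        ∑ i, algebraMap K F (v.repr ⟨f, hf⟩ j) * (aeval x (p (j, i)) * b i) := by
      intro j
      rw [mul_smul_comm, hbasis, Algebra.smul_def, Finset.mul_sum]
    simp only [h3]
    rw [Finset.sum_comm, Finset.mul_sum]
    refine Finset.sum_congr rfl fun i _ => ?_
    rw [map_mul (aeval x), aeval_C, map_sum, mul_assoc, Finset.sum_mul]
    congr 1
    refine Finset.sum_congr rfl fun j _ => ?_
    rw [map_mul (aeval x), aeval_C, mul_assoc]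

/-- **Orthogonality**: a finite dimensional space of functions `V` contains `dim V` integral
functions with independent reductions. -/
theorem IsCoord.exists_family (hc : IsCoord R x xb) (V : Submodule K F) [FiniteDimensional K V] :
    ∃ n, Module.finrank K V ≤ n ∧ ∃ (f : Fin n → F) (fb : Fin n → Fk),
      (∀ j, f j ∈ V) ∧ (∀ j, R.IsRed (f j) (fb j)) ∧ LinearIndependent k fb := by
  classical
  have := hc.finite'
  let wb := Module.finBasis k⟮xb⟯ Fk
  have hex : ∀ i, ∃ y, R.IsRed y (wb i) := fun i => R.exists_isRed (wb i)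
  choose w hw using hex
  obtain ⟨b, hb⟩ := hc.exists_basis wb w hw
  have hw' : ∀ i, R.IsRed (b i) (wb i) := by rw [hb]; exact hw
  obtain ⟨q, M, hq0, hq⟩ := exists_common_denominator hc b V
  have hqr := isRed_aeval hc.isRed q
  have hqr0 := aeval_ne_zero hc.trans hq0
  have hqx0 := hqr.ne_zero hqr0
  -- the orthonormal family
  let e : Fin (M + 1) × Fin (Module.finrank k⟮xb⟯ Fk) → F := fun t =>
    (aeval x (q.map A.subtype))⁻¹ * (x ^ (t.1 : ℕ) * b t.2)
  let eb : Fin (M + 1) × Fin (Module.finrank k⟮xb⟯ Fk) → Fk := fun t =>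
    (aeval xb (q.map π))⁻¹ * (xb ^ (t.1 : ℕ) * wb t.2)
  have he : ∀ t, R.IsRed (e t) (eb t) := fun t =>
    (hqr.inv hqr0).mul ((hc.isRed.pow _).mul (hw' t.2))
  have hli : LinearIndependent k eb := by
    have h1 : LinearIndependent k (fun j : Fin (M + 1) => (⟨xb ^ (j : ℕ),
        pow_mem (IntermediateField.mem_adjoin_simple_self k xb) _⟩ : k⟮xb⟯)) := by
      rw [Fintype.linearIndependent_iff]
      intro g hg j
      have h2 : aeval xb (∑ j : Fin (M + 1), C (g j) * X ^ (j : ℕ)) = 0 := by
        have h3 := congrArg (algebraMap k⟮xb⟯ Fk) hg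
        rw [map_sum, map_zero] at h3
        rw [map_sum, ← h3]
        refine Finset.sum_congr rfl fun j _ => ?_
        rw [map_mul, aeval_C, map_pow, aeval_X, Algebra.smul_def, map_mul]
        rfl
      have h4 : (∑ j : Fin (M + 1), C (g j) * X ^ (j : ℕ)) = 0 := by
        by_contra h5
        exact hc.trans ⟨_, h5, h2⟩
      have h5 := congrArg (fun p => coeff p (j : ℕ)) h4
      simp only [finsetSum_coeff, coeff_C_mul, coeff_X_pow, coeff_zero] at h5
      rw [Finset.sum_eq_single j] at h5
      · simpa using h5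
      · intro i _ hij
        rw [if_neg, mul_zero]
        exact fun h => hij (Fin.ext h.symm)
      · intro h; exact absurd (Finset.mem_univ _) h
    have h2 := linearIndependent_smul h1 wb.linearIndependent
    have h3 := h2.map' (LinearMap.mulLeft k ((aeval xb (q.map π))⁻¹)) (by
      rw [LinearMap.ker_eq_bot]
      exact mul_right_injective₀ (inv_ne_zero hqr0))
    exact h3
  refine exists_family_of_le he hli V fun f hf => ?_
  obtain ⟨p, hp, hpf⟩ := hq f hf
  refine ⟨fun t => (p t.2).coeff t.1, ?_⟩
  have h1 : f = (aeval x (q.map A.subtype))⁻¹ * ∑ i, aeval x (p i) * b i := by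
    rw [← hpf, inv_mul_cancel_left₀ hqx0]
  rw [h1, Fintype.sum_prod_type_right, Finset.mul_sum]
  refine Finset.sum_congr rfl fun i _ => ?_
  rw [aeval_eq_sum_range' (Nat.lt_succ_of_le (hp i)), Finset.sum_range, Finset.sum_mul,
    Finset.mul_sum]
  refine Finset.sum_congr rfl fun j _ => ?_
  simp only [e, Algebra.smul_def]
  ring

/-- dimension of the reductions -/
theorem IsCoord.finrank_le (hc : IsCoord R x xb) (V : Submodule K F) [FiniteDimensional K V]
    (W : Submodule k Fk) [FiniteDimensional k W]
    (hVW : ∀ f ∈ V, ∀ fb, R.IsRed f fb → fb ∈ W) :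
    Module.finrank K V ≤ Module.finrank k W := by
  obtain ⟨n, hn, f, fb, hf, hfb, hli⟩ := hc.exists_family V
  refine hn.trans ?_
  have h1 : LinearIndependent k (fun j => (⟨fb j, hVW _ (hf j) _ (hfb j)⟩ : W)) :=
    LinearIndependent.of_comp W.subtype hli
  simpa using h1.fintype_card_le_finrank

/-- if the dimensions agree, reduction is surjective. -/
theorem IsCoord.exists_lift (hc : IsCoord R x xb) (hπ : Function.Surjective π)
    (V : Submodule K F) [FiniteDimensional K V]
    (W : Submodule k Fk) [FiniteDimensional k W]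
    (hVW : ∀ f ∈ V, ∀ fb, R.IsRed f fb → fb ∈ W)
    (hdim : Module.finrank k W ≤ Module.finrank K V) {z : Fk} (hz : z ∈ W) :
    ∃ f ∈ V, R.IsRed f z := by
  classical
  obtain ⟨n, hn, f, fb, hf, hfb, hli⟩ := hc.exists_family V
  have h1 : LinearIndependent k (fun j => (⟨fb j, hVW _ (hf j) _ (hfb j)⟩ : W)) :=
    LinearIndependent.of_comp W.subtype hli
  have hcard : Fintype.card (Fin n) = Module.finrank k W := by
    apply le_antisymm
    · exact h1.fintype_card_le_finrank
    · rw [Fintype.card_fin]; omega
  have h2 := h1.span_eq_top_of_card_eq_finrank' hcard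
  have h3 : (⟨z, hz⟩ : W) ∈ Submodule.span k (Set.range
      (fun j => (⟨fb j, hVW _ (hf j) _ (hfb j)⟩ : W))) := by rw [h2]; trivial
  rw [Submodule.mem_span_range_iff_exists_fun] at h3
  obtain ⟨c, hc'⟩ := h3
  choose a ha using fun j => hπ (c j)
  refine ⟨∑ j, (a j : K) • f j, Submodule.sum_mem _ fun j _ => V.smul_mem _ (hf j), ?_⟩
  have h4 : z = ∑ j, c j • fb j := by
    have := congrArg W.subtype hc'
    rw [map_sum] at this
    exact this.symm
  rw [h4]
  refine ConstRed.isRed_sum _ fun j _ => ?_
  rw [Algebra.smul_def, Algebra.smul_def, ← ha j]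
  exact (R.isRed_coe (a j)).mul (hfb j)

end Fermat.Agent.GoodRed
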