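import Mathlib.RingTheory.DedekindDomain.Different
import Fermat.Agent.FF.Divisor

/-!
# A tame bound for the different in residue characteristic zero
-/

set_option autoImplicit false
set_option linter.unusedSectionVars false

open IsDedekindDomain WithZero

namespace Fermat.Agent.GoodRed

section Dedekind

variable {A B : Type*} [CommRing A] [CommRing B] [Algebra A B] [IsDedekindDomain A]
  [IsDedekindDomain B] [Module.IsTorsionFree A B] [Module.Finite A B]

attribute [local instance] FractionRing.liftAlgebra FractionRing.isScalarTower_liftAlgebra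
  Ideal.Quotient.field

/-- If `P * Q = p B` with `P`, `Q` coprime and `P ≠ ⊤`, then `P` does not divide the different
when the residue field `A ⧸ p` has characteristic zero. -/
theorem not_dvd_differentIdeal_of_charZero
    [Algebra.IsSeparable (FractionRing A) (FractionRing B)]
    {p : Ideal A} [p.IsMaximal] [CharZero (A ⧸ p)] (P Q : Ideal B) (hP1 : P ≠ ⊤)
    (hPQ : IsCoprime P Q) (hP : P * Q = Ideal.map (algebraMap A B) p) :
    ¬ P ∣ differentIdeal A B := by
  let : Algebra (A ⧸ p) (B ⧸ Q) := Ideal.Quotient.algebraQuotientOfLEComap (by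
      rw [← Ideal.map_le_iff_le_comap, ← hP]
      exact Ideal.mul_le_right)
  let : Algebra (A ⧸ p) (B ⧸ P) := Ideal.Quotient.algebraQuotientOfLEComap (by
      rw [← Ideal.map_le_iff_le_comap, ← hP]
      exact Ideal.mul_le_left)
  have : IsScalarTower A (A ⧸ p) (B ⧸ Q) := .of_algebraMap_eq' rfl
  have : IsScalarTower A (A ⧸ p) (B ⧸ P) := .of_algebraMap_eq' rfl
  have : Module.Finite (A ⧸ p) (B ⧸ Q) :=
    Module.Finite.of_restrictScalars_finite A (A ⧸ p) (B ⧸ Q)
  have : Module.Finite (A ⧸ p) (B ⧸ P) :=
    Module.Finite.of_restrictScalars_finite A (A ⧸ p) (B ⧸ P)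
  have : Nontrivial (B ⧸ P) := Ideal.Quotient.nontrivial_iff.mpr hP1
  let e : (B ⧸ p.map (algebraMap A B)) ≃ₐ[A ⧸ p] ((B ⧸ P) × B ⧸ Q) :=
    { __ := (Ideal.quotEquivOfEq hP.symm).trans (Ideal.quotientMulEquivQuotientProd P Q hPQ),
      commutes' := Quotient.ind fun _ ↦ rfl }
  have hx : Algebra.trace (A ⧸ p) (B ⧸ P) 1 ≠ 0 := by
    rw [← map_one (algebraMap (A ⧸ p) (B ⧸ P)), Algebra.trace_algebraMap]
    have : Module.finrank (A ⧸ p) (B ⧸ P) ≠ 0 := Module.finrank_pos.ne'
    simpa using this
  obtain ⟨y, hy⟩ := Ideal.Quotient.mk_surjective (e.symm (1, 0))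
  refine not_dvd_differentIdeal_of_intTrace_not_mem A P Q hP y ?_ ?_
  · have := congr((e $hy).2)
    simp at this
    simpa [e, Ideal.Quotient.eq_zero_iff_mem] using this
  · rw [← Ideal.Quotient.eq_zero_iff_mem, ← Algebra.trace_quotient_eq_of_isDedekindDomain,
      hy, Algebra.trace_eq_of_algEquiv, Algebra.trace_prod_apply]
    simpa

end Dedekind

section Dedekind2

variable {A B Q F : Type*} [CommRing A] [CommRing B] [Algebra A B] [IsDedekindDomain A]
  [IsDedekindDomain B] [Module.IsTorsionFree A B] [Module.Finite A B]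
  [Field Q] [Field F] [Algebra A Q] [IsFractionRing A Q] [Algebra B F] [IsFractionRing B F]
  [Algebra Q F] [Algebra A F] [IsScalarTower A Q F] [IsScalarTower A B F]
  [FiniteDimensional Q F] [Algebra.IsSeparable Q F]

attribute [local instance] FractionRing.liftAlgebra FractionRing.isScalarTower_liftAlgebra
  Ideal.Quotient.field

variable (A B Q F) in
include Q F in
theorem isSeparable_fractionRing : Algebra.IsSeparable (FractionRing A) (FractionRing B) := by
  have H : RingHom.comp (algebraMap (FractionRing A) (FractionRing B))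
      ↑(FractionRing.algEquiv A Q).symm.toRingEquiv =
        RingHom.comp ↑(FractionRing.algEquiv B F).symm.toRingEquiv (algebraMap Q F) := by
    apply IsLocalization.ringHom_ext (nonZeroDivisors A)
    ext
    simp only [RingHom.coe_comp, RingHom.coe_coe,
      AlgEquiv.coe_ringEquiv, Function.comp_apply, AlgEquiv.commutes,
      ← IsScalarTower.algebraMap_apply]
    rw [IsScalarTower.algebraMap_apply A B F, AlgEquiv.commutes, ← IsScalarTower.algebraMap_apply]
  exact Algebra.IsSeparable.of_equiv_equiv _ _ H

theorem exists_mul_of_mem_differentIdeal (h : F)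
    (hh : ∀ b : B, Algebra.trace Q F (h * algebraMap B F b) ∈ (algebraMap A Q).range)
    (d : B) (hd : d ∈ differentIdeal A B) : ∃ c : B, algebraMap B F c = algebraMap B F d * h := by
  have : Algebra.IsSeparable (FractionRing A) (FractionRing B) := isSeparable_fractionRing A B Q F
  have hmem : algebraMap B F d ∈ IsLocalization.coeSubmodule F (differentIdeal A B) := by
    rw [IsLocalization.mem_coeSubmodule]
    exact ⟨d, hd, rfl⟩
  have hIC : IsIntegralClosure B A F := by
    exact IsIntegralClosure.of_isIntegrallyClosed B A F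
  rw [coeSubmodule_differentIdeal A Q] at hmem
  have h1 : h ∈ Submodule.traceDual A Q (1 : Submodule B F) := by
    rw [Submodule.mem_traceDual]
    intro a ha
    rw [Submodule.mem_one] at ha
    obtain ⟨b, rfl⟩ := ha
    exact hh b
  have h2 := Submodule.mem_div_iff_forall_mul_mem.mp hmem h h1
  obtain ⟨c, hc⟩ := Submodule.mem_one.mp h2
  exact ⟨c, hc⟩

/-- `h` in the trace dual of `B`, `v` a prime of `B` over a principal maximal ideal `(π)` of `A`
with residue field of characteristic zero: then `v (π h) < 1`. -/
theorem valuation_mul_lt_one (v : HeightOneSpectrum B) (π : A)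
    [hmax : (Ideal.span {π}).IsMaximal] [CharZero (A ⧸ Ideal.span {π})] (hπ0 : π ≠ 0)
    (hπ : algebraMap A B π ∈ v.asIdeal) (h : F)
    (hh : ∀ b : B, Algebra.trace Q F (h * algebraMap B F b) ∈ (algebraMap A Q).range) :
    v.valuation F (algebraMap A F π * h) < 1 := by
  classical
  have : Algebra.IsSeparable (FractionRing A) (FractionRing B) := isSeparable_fractionRing A B Q F
  have hne : Ideal.map (algebraMap A B) (Ideal.span {π}) ≠ 0 := by
    rw [Ideal.map_span, Set.image_singleton, Ideal.zero_eq_bot, ne_eq, Ideal.span_singleton_eq_bot]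
    intro h0
    exact hπ0 ((FaithfulSMul.algebraMap_injective A B) (by rw [h0, map_zero]))
  have hfin : FiniteMultiplicity v.asIdeal (Ideal.map (algebraMap A B) (Ideal.span {π})) :=
    FiniteMultiplicity.of_not_isUnit v.prime.not_isUnit hne
  obtain ⟨Q', hQ', hQ'n⟩ := hfin.exists_eq_pow_mul_and_not_dvd
  set e := multiplicity v.asIdeal (Ideal.map (algebraMap A B) (Ideal.span {π})) with he
  have he1 : e ≠ 0 := by
    intro h0
    rw [h0, pow_zero, one_mul] at hQ'
    apply hQ'n
    rw [← hQ', Ideal.dvd_iff_le, Ideal.map_span, Set.image_singleton,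
      Ideal.span_singleton_le_iff_mem]
    exact hπ
  have hcop : IsCoprime (v.asIdeal ^ e) Q' := by
    apply IsCoprime.pow_left
    rw [Ideal.isCoprime_iff_sup_eq]
    have hm := v.isMaximal
    rcases hm.eq_of_le (J := v.asIdeal ⊔ Q') with h1
    by_contra hcon
    have h2 := h1 hcon le_sup_left
    apply hQ'n
    rw [Ideal.dvd_iff_le, h2]
    exact le_sup_right
  have hnd := not_dvd_differentIdeal_of_charZero (p := Ideal.span {π}) (v.asIdeal ^ e) Q'
    (fun htop => by
      have := v.isPrime.ne_top
      apply this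
      rw [Ideal.eq_top_iff_one] at htop ⊢
      exact Ideal.pow_le_self he1 htop) hcop hQ'.symm
  rw [Ideal.dvd_iff_le, SetLike.not_le_iff_exists] at hnd
  obtain ⟨d, hd, hdn⟩ := hnd
  obtain ⟨c, hc⟩ := exists_mul_of_mem_differentIdeal h hh d hd
  -- valuations
  have hd0 : v.valuation F (algebraMap B F d) ≠ 0 := by
    rw [ne_eq, map_eq_zero]
    intro h0
    apply hdn
    have : d = 0 := IsFractionRing.injective B F (by rw [h0, map_zero])
    rw [this]
    exact zero_mem _
  have h2 : v.valuation F (algebraMap A F π) ≤ exp (-(e : ℤ)) := by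
    rw [IsScalarTower.algebraMap_apply A B F, HeightOneSpectrum.valuation_of_algebraMap,
      HeightOneSpectrum.intValuation_le_pow_iff_mem]
    have h3 : algebraMap A B π ∈ Ideal.map (algebraMap A B) (Ideal.span {π}) :=
      Ideal.mem_map_of_mem _ (Ideal.mem_span_singleton_self π)
    have h4 : Ideal.map (algebraMap A B) (Ideal.span {π}) ≤ v.asIdeal ^ e := by
      rw [← Ideal.dvd_iff_le]
      exact Dvd.intro _ hQ'.symm
    exact h4 h3
  have h3 : exp (-(e : ℤ)) < v.valuation F (algebraMap B F d) := by
    rw [HeightOneSpectrum.valuation_of_algebraMap]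
    by_contra hcon
    rw [not_lt, HeightOneSpectrum.intValuation_le_pow_iff_mem] at hcon
    exact hdn hcon
  have h4 : v.valuation F (algebraMap B F d) * v.valuation F h ≤ 1 := by
    rw [← map_mul, ← hc]
    exact v.valuation_le_one c
  rw [map_mul]
  calc v.valuation F (algebraMap A F π) * v.valuation F h
      < 1 := by
        rcases eq_or_ne (v.valuation F h) 0 with h0 | h0
        · rw [h0, mul_zero]; exact zero_lt_one
        · refine lt_of_lt_of_le ?_ h4
          exact mul_lt_mul_of_pos_right (h2.trans_lt h3) (zero_lt_iff.mpr h0)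

end Dedekind2


end Fermat.Agent.GoodRed
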